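import Fermat.Agent.Lifting.Squarefree.Contracts

/-!
# Contracts of residual modularity at `3` of every semistable curve

For a curve good at `2`: a switch at `3` to a curve multiplicative at `2`, or to a supersingular
one with irreducible `E[5]`; from the latter a switch at `5` to a curve multiplicative at `2`,
removal of `2` from the level, and lifting at `5`.
-/

set_option autoImplicit false

open WeierstrassCurve

namespace Fermat.Agent.GoodTwo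

/-- Good supersingular at `2`, with `c₄ / 16` odd (that is, `a₂ = ±2`). -/
def IsSupersingularTwo (W : WeierstrassCurve ℤ) : Prop :=
  ¬ (2 : ℤ) ∣ W.Δ ∧ (16 : ℤ) ∣ W.c₄ ∧ ¬ (32 : ℤ) ∣ W.c₄ ∧ W.c₆ % 32 = 8

/-- The switch at `3` of a curve good at `2`. -/
def ThreeSwitch : Prop :=
  ∀ W : WeierstrassCurve ℤ, W.Δ ≠ 0 → W.IsSemistableModel → W.ModRepIsIrreducible 3 →
    ¬ (2 : ℤ) ∣ W.Δ →
    ∃ V : WeierstrassCurve ℤ, V.Δ ≠ 0 ∧ V.IsSemistableModel ∧ V.ModRepIsIrreducible 3 ∧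
      ((2 : ℤ) ∣ V.Δ ∨
        (IsSupersingularTwo V ∧ V.ModRepIsIrreducible 5 ∧
          (∃ q : ℕ, q.Prime ∧ q ≠ 5 ∧ (q : ℤ) ∣ V.Δ) ∧
          (V.IsGoodPrimeFor 3 → (3 : ℤ) ∣ V.c₄ ∨ V.Δ % 3 = 2))) ∧
      (W.IsGoodPrimeFor 3 → V.IsGoodPrimeFor 3) ∧
      ∀ ℓ : ℕ, ℓ.Prime → ℓ ≠ 3 → W.IsGoodPrimeFor ℓ → V.IsGoodPrimeFor ℓ →
        (3 : ℤ) ∣ (V.apOfModel ℓ - W.apOfModel ℓ)

/-- The switch at `5` of a supersingular curve to a curve liftable at `3`. -/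
def FiveSwitch : Prop :=
  ∀ V : WeierstrassCurve ℤ, V.Δ ≠ 0 → V.IsSemistableModel → IsSupersingularTwo V →
    V.ModRepIsIrreducible 5 →
    ∃ U : WeierstrassCurve ℤ, U.Δ ≠ 0 ∧ U.IsSemistableModel ∧ Lifting.IsLiftableAt U 3 ∧
      U.ModRepIsIrreducible 3 ∧
      (V.IsGoodPrimeFor 3 → U.IsGoodPrimeFor 3) ∧ (V.IsGoodPrimeFor 5 → U.IsGoodPrimeFor 5) ∧
      ∀ ℓ : ℕ, ℓ.Prime → V.IsGoodPrimeFor ℓ → U.IsGoodPrimeFor ℓ → ℓ ≠ 5 →
        (5 : ℤ) ∣ (U.apOfModel ℓ - V.apOfModel ℓ)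

/-- Removal of `2` (and of a spurious `3`) from a squarefree residual level at `5`. -/
def LevelTwoRemoval : Prop :=
  ∀ V : WeierstrassCurve ℤ, V.Δ ≠ 0 → V.IsSemistableModel → ¬ (2 : ℤ) ∣ V.Δ →
    V.ModRepIsIrreducible 5 → (V.IsGoodPrimeFor 3 → (3 : ℤ) ∣ V.c₄ ∨ V.Δ % 3 = 2) →
    ∀ N : ℕ, 0 < N → Squarefree N → V.IsResiduallyModularOfLevel 5 N →
      (V.IsGoodPrimeFor 5 → ¬ 5 ∣ N) →
      ∃ M : ℕ, 0 < M ∧ Squarefree M ∧ V.IsResiduallyModularOfLevel 5 M ∧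
        (V.IsGoodPrimeFor 5 → ¬ 5 ∣ M) ∧
        ∀ q : ℕ, q.Prime → q ∣ M → V.IsGoodPrimeFor q → q ≠ 5 → 5 ≤ q

/-- Residual modularity at `3`, at a squarefree level, of every semistable curve. -/
def SemistableModularAtThree : Prop :=
  ∀ W : WeierstrassCurve ℤ, W.Δ ≠ 0 → W.IsSemistableModel → W.ModRepIsIrreducible 3 →
    ∃ M : ℕ, 0 < M ∧ Squarefree M ∧ W.IsResiduallyModularOfLevel 3 M ∧
      (W.IsGoodPrimeFor 3 → ¬ 3 ∣ M)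

end Fermat.Agent.GoodTwo
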