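import Fermat.Agent.Switch.Adjusted
import Fermat.Agent.GoodTwo.Contracts

/-!
# The switch at `5` of a curve supersingular at `2`

The member at `x ≡ 0`, `y` odd of the five-torsion family is multiplicative at `2`, its
discriminant having valuation `5` there.
-/

set_option autoImplicit false

namespace Fermat.Agent.GoodTwo

open WeierstrassCurve Fermat.Agent.Switch

/-- The forms at `x ≡ 0` for supersingular invariants at `2`. -/
theorem exists_forms_supersingular_two {a b x y : ℤ} (ha : (16 : ℤ) ∣ a) (ha' : ¬ (32 : ℤ) ∣ a)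
    (hb : b % 32 = 8) (hy : ¬ (2 : ℤ) ∣ y) (hx : (2 : ℤ) ^ 64 ∣ x) :
    ∃ D A B : ℤ, fiveD a b x y = ((2 : ℤ) ^ 2) ^ 12 * D ∧
      fiveC4 a b x y = ((2 : ℤ) ^ 2) ^ 20 * A ∧ fiveC6 a b x y = ((2 : ℤ) ^ 2) ^ 30 * B ∧
      (2 : ℤ) ∣ D ∧ ¬ (4 : ℤ) ∣ D ∧ ¬ (2 : ℤ) ∣ A ∧ (B : ZMod 4) = 3 := by
  obtain ⟨α, rfl⟩ := ha
  have hα : ¬ (2 : ℤ) ∣ α := fun ⟨m, hm⟩ => ha' ⟨m, by rw [hm]; ring⟩
  obtain ⟨β, rfl⟩ : (8 : ℤ) ∣ b := by omega
  have hβ4 : (β : ZMod 4) = 1 := by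
    rw [← sub_eq_zero, ← Int.cast_one, ← Int.cast_sub]
    exact (ZMod.intCast_zmod_eq_zero_iff_dvd _ 4).2 (by omega)
  set f := Ideal.Quotient.mk (Ideal.span {(2 : ℤ) ^ 64})
  have fx : f x = 0 := Ideal.Quotient.eq_zero_iff_mem.2 (Ideal.mem_span_singleton.2 hx)
  have hmem : ∀ {m m' : ℤ}, f m = f m' → (2 : ℤ) ^ 64 ∣ m - m' := fun h =>
    Ideal.mem_span_singleton.1 (Ideal.Quotient.eq.1 h)
  obtain ⟨kD, hkD⟩ := hmem (m := fiveD (16 * α) (8 * β) x y) (m' := fiveD (16 * α) (8 * β) 0 y)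
    (by rw [map_fiveD, map_fiveD, fx, map_zero])
  obtain ⟨k4, hk4⟩ := hmem (m := fiveC4 (16 * α) (8 * β) x y) (m' := fiveC4 (16 * α) (8 * β) 0 y)
    (by rw [map_fiveC4, map_fiveC4, fx, map_zero])
  obtain ⟨k6, hk6⟩ := hmem (m := fiveC6 (16 * α) (8 * β) x y) (m' := fiveC6 (16 * α) (8 * β) 0 y)
    (by rw [map_fiveC6, map_fiveC6, fx, map_zero])
  have eD : fiveD (16 * α) (8 * β) 0 y =
      2 ^ 24 * (y ^ 12 * (91125 * α ^ 6 - 3024 * α ^ 3 * β ^ 2 + 25 * β ^ 4)) := by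
    simp only [fiveD]; ring
  have e4 : fiveC4 (16 * α) (8 * β) 0 y =
      2 ^ 40 * (y ^ 20 * (2952450000 * α ^ 11 - 137325375 * α ^ 8 * β ^ 2 +
        2128896 * α ^ 5 * β ^ 4 - 11000 * α ^ 2 * β ^ 6)) := by
    simp only [fiveC4, fiveC4Part0, fiveC4Part1, fiveC4Part2, fiveC4Part3]; ring
  have e6 : fiveC6 (16 * α) (8 * β) 0 y =
      2 ^ 60 * (y ^ 30 * (-32882911875000 * α ^ 15 * β + 2474608269375 * α ^ 12 * β ^ 3 -
        74382704352 * α ^ 9 * β ^ 5 + 1116155700 * α ^ 6 * β ^ 7 - 8360000 * α ^ 3 * β ^ 9 +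
        25000 * β ^ 11)) := by
    simp only [fiveC6, fiveC6Part0, fiveC6Part1, fiveC6Part2, fiveC6Part3, fiveC6Part4,
      fiveC6Part5]; ring
  have hsq : ∀ z : ℤ, ¬ (2 : ℤ) ∣ z → (z : ZMod 4) ^ 2 = 1 := by
    intro z hz
    have h : ZMod.castHom (show 2 ∣ 4 by norm_num) (ZMod 2) (z : ZMod 4) ≠ 0 := by
      rw [map_intCast]
      exact fun h => hz ((ZMod.intCast_zmod_eq_zero_iff_dvd z 2).1 h)
    generalize (z : ZMod 4) = u at h ⊢
    revert u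
    decide
  have y4 := hsq y hy
  have α4 := hsq α hα
  refine ⟨y ^ 12 * (91125 * α ^ 6 - 3024 * α ^ 3 * β ^ 2 + 25 * β ^ 4) + 4 * (2 ^ 38 * kD),
    y ^ 20 * (2952450000 * α ^ 11 - 137325375 * α ^ 8 * β ^ 2 +
      2128896 * α ^ 5 * β ^ 4 - 11000 * α ^ 2 * β ^ 6) + 4 * (2 ^ 22 * k4),
    y ^ 30 * (-32882911875000 * α ^ 15 * β + 2474608269375 * α ^ 12 * β ^ 3 -
      74382704352 * α ^ 9 * β ^ 5 + 1116155700 * α ^ 6 * β ^ 7 - 8360000 * α ^ 3 * β ^ 9 +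
      25000 * β ^ 11) + 4 * (2 ^ 2 * k6),
    by linear_combination hkD + eD, by linear_combination hk4 + e4,
    by linear_combination hk6 + e6, ?_, ?_, ?_, ?_⟩
  · refine (ZMod.intCast_zmod_eq_zero_iff_dvd _ 2).1 ?_
    have h := congrArg (ZMod.castHom (show 2 ∣ 4 by norm_num) (ZMod 2))
      (show (((y ^ 12 * (91125 * α ^ 6 - 3024 * α ^ 3 * β ^ 2 + 25 * β ^ 4) +
        4 * (2 ^ 38 * kD) : ℤ)) : ZMod 4) = 2 by
          push_cast
          rw [show (y : ZMod 4) ^ 12 = ((y : ZMod 4) ^ 2) ^ 6 by ring, y4, hβ4,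
            show (α : ZMod 4) ^ 6 = ((α : ZMod 4) ^ 2) ^ 3 by ring, α4,
            show (4 : ZMod 4) = 0 by decide, show (3024 : ZMod 4) = 0 by decide]
          simp only [one_pow, mul_one, one_mul, zero_mul, add_zero, sub_zero]
          decide)
    rw [map_intCast] at h
    exact h.trans (by decide)
  · intro h
    have h' := (ZMod.intCast_zmod_eq_zero_iff_dvd _ 4).2 h
    push_cast at h'
    rw [show (y : ZMod 4) ^ 12 = ((y : ZMod 4) ^ 2) ^ 6 by ring, y4, hβ4,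
      show (α : ZMod 4) ^ 6 = ((α : ZMod 4) ^ 2) ^ 3 by ring, α4,
      show (4 : ZMod 4) = 0 by decide, show (3024 : ZMod 4) = 0 by decide] at h'
    simp only [one_pow, mul_one, one_mul, zero_mul, add_zero, sub_zero] at h'
    revert h'
    decide
  · intro h
    have h' := congrArg (fun m : ZMod 4 => 2 * m)
      (show ((y ^ 20 * (2952450000 * α ^ 11 - 137325375 * α ^ 8 * β ^ 2 +
        2128896 * α ^ 5 * β ^ 4 - 11000 * α ^ 2 * β ^ 6) + 4 * (2 ^ 22 * k4) : ℤ) : ZMod 4) = 1 by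
          push_cast
          rw [show (y : ZMod 4) ^ 20 = ((y : ZMod 4) ^ 2) ^ 10 by ring, y4,
            show (α : ZMod 4) ^ 8 = ((α : ZMod 4) ^ 2) ^ 4 by ring, α4, hβ4,
            show (4 : ZMod 4) = 0 by decide, show (2952450000 : ZMod 4) = 0 by decide,
            show (2128896 : ZMod 4) = 0 by decide, show (11000 : ZMod 4) = 0 by decide]
          simp only [one_pow, mul_one, one_mul, zero_mul, add_zero, sub_zero, zero_sub]
          decide)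
    obtain ⟨m, hm⟩ := h
    rw [hm] at h'
    push_cast at h'
    rw [← mul_assoc, show (2 : ZMod 4) * 2 = 0 by decide, zero_mul] at h'
    revert h'
    decide
  · push_cast
    rw [show (y : ZMod 4) ^ 30 = ((y : ZMod 4) ^ 2) ^ 15 by ring, y4,
      show (α : ZMod 4) ^ 12 = ((α : ZMod 4) ^ 2) ^ 6 by ring, α4, hβ4,
      show (4 : ZMod 4) = 0 by decide, show (-32882911875000 : ZMod 4) = 0 by decide,
      show (74382704352 : ZMod 4) = 0 by decide, show (1116155700 : ZMod 4) = 0 by decide,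
      show (8360000 : ZMod 4) = 0 by decide, show (25000 : ZMod 4) = 0 by decide]
    simp only [one_pow, mul_one, one_mul, zero_mul, add_zero, sub_zero, zero_add]
    decide

theorem padicValInt_two_of_not_four_dvd {D : ℤ} (h2 : (2 : ℤ) ∣ D) (h4 : ¬ (4 : ℤ) ∣ D) :
    padicValInt 2 D = 1 := by
  obtain ⟨m, rfl⟩ := h2
  have hm : ¬ (2 : ℤ) ∣ m := fun ⟨j, hj⟩ => h4 ⟨j, by rw [hj]; ring⟩
  rw [padicValInt.mul two_ne_zero (fun h => hm (by rw [h]; exact dvd_zero _)),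
    show padicValInt 2 (2 : ℤ) = 1 from padicValInt.self one_lt_two,
    padicValInt.eq_zero_of_not_dvd (p := 2) (z := m) hm]

/-- The member of the five-torsion family with the wanted valuations at `2` and `3`. -/
theorem exists_supersingular_five_model (W : WeierstrassCurve ℤ) (hΔ : W.Δ ≠ 0)
    (hW : W.IsSemistableModel) (hss : IsSupersingularTwo W) :
    ∃ V : WeierstrassCurve ℤ, V.Δ ≠ 0 ∧ V.IsSemistableModel ∧
      ((2 : ℤ) ∣ V.Δ ∧ ¬ 3 ∣ padicValInt 2 V.Δ ∧ ((3 : ℤ) ∣ V.Δ → ¬ 3 ∣ padicValInt 3 V.Δ)) ∧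
      (W.IsGoodPrimeFor 3 → V.IsGoodPrimeFor 3) ∧ (W.IsGoodPrimeFor 5 → V.IsGoodPrimeFor 5) ∧
      ∀ ℓ : ℕ, ℓ.Prime → W.IsGoodPrimeFor ℓ → V.IsGoodPrimeFor ℓ → ℓ ≠ 5 →
        (5 : ℤ) ∣ (V.apOfModel ℓ - W.apOfModel ℓ) := by
  obtain ⟨y₀, hy₀, hy₀2, hy₀3, hy₀5, hy₀Δ⟩ := exists_outside_six hΔ
  obtain ⟨hg2, h16, h32, hb8⟩ := hss
  obtain ⟨e₃, he₃, he₃', hloc₃⟩ := exists_local_three W hW hΔ
  obtain ⟨r₃, hr₃⟩ := hloc₃ y₀ hy₀3
  obtain ⟨s, hs₂, hs₃⟩ := exists_crt (m := (2 : ℤ) ^ 64) (n := (3 : ℤ) ^ 31)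
    ((show IsCoprime (2 : ℤ) 3 from ⟨-1, 1, by norm_num⟩).pow) 0 r₃
  obtain ⟨x, hxs, hx1⟩ := exists_crt (m := (2 : ℤ) ^ 64 * 3 ^ 31) (n := y₀)
    (((Int.prime_two.coprime_iff_not_dvd.2 hy₀2).pow_left).mul_left
      ((Int.prime_three.coprime_iff_not_dvd.2 hy₀3).pow_left)) s 1
  have hy2 : ¬ (2 : ℤ) ∣ e₃ * y₀ := fun h => (Int.prime_two.dvd_or_dvd h).elim
    (fun h => absurd (he₃' 2 Nat.prime_two (by exact_mod_cast h)) (by norm_num)) hy₀2
  obtain ⟨D, A, B, hD, hA, hB, hD2, hD4, hA2, hB4⟩ :=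
    exists_forms_supersingular_two (x := x) h16 h32 hb8 hy2
      (by simpa using ((dvd_mul_right _ _).trans hxs).add hs₂)
  have hD0 : D ≠ 0 := fun h => hD4 (by rw [h]; exact dvd_zero _)
  obtain ⟨l, D₃, A₃, B₃, hD₃, hA₃, hB₃, h27, -, hv3, hg3⟩ :=
    hr₃ x (by simpa using ((dvd_mul_left _ _).trans hxs).add hs₃)
  set a := W.c₄ with ha
  set b := W.c₆ with hb
  set y := e₃ * y₀ with hy
  set w : ℤ := 2 ^ 2 * 3 ^ l with hw
  have hw0 : w ≠ 0 := by positivity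
  obtain ⟨D', hDD, hD3D, hFD⟩ := exists_common_cofactor 2 l 12 hD hD₃
  obtain ⟨A', hAA, hA3A, hFA⟩ := exists_common_cofactor 2 l 20 hA hA₃
  obtain ⟨B', hBB, hB3B, hFB⟩ := exists_common_cofactor 2 l 30 hB hB₃
  rw [← hw] at hFD hFA hFB
  have hrel : A' ^ 3 - B' ^ 2 = 1728 * (W.Δ * D' ^ 5) := by
    have h := fiveC4_cube_sub_fiveC6_sq a b x y
    rw [hFA, hFB, hFD, ← W.c_relation] at h
    refine mul_left_cancel₀ (pow_ne_zero 60 hw0) ?_
    linear_combination h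
  have hB' : (B' : ZMod 4) = 3 := by
    have h := congrArg (Int.cast : ℤ → ZMod 4) hBB
    push_cast at h
    rwa [hB4, ← pow_mul, mul_comm l 30, pow_mul, show (3 : ZMod 4) ^ 30 = 1 by decide, one_pow,
      one_mul, eq_comm] at h
  have hA' : ¬ (2 : ℤ) ∣ A' := fun h => hA2 (hAA ▸ h.mul_left _)
  have h3 : ¬ (3 : ℤ) ∣ A' ∨ (27 : ℤ) ∣ B' := by
    refine h27.imp (fun h h' => h (hA3A ▸ h'.mul_left _)) fun h => ?_
    rw [hB3B] at h
    exact IsCoprime.dvd_of_dvd_mul_left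
      (((show IsCoprime (27 : ℤ) 2 from ⟨1, -13, by norm_num⟩).pow_right).pow_right) h
  obtain ⟨V, hV4, hV6, hVΔ⟩ := Fermat.Agent.TwoAdic.exists_model A' B' _ hrel
    (Int.not_even_iff_odd.1 fun h => hA' (even_iff_two_dvd.1 h))
    (((ZMod.intCast_eq_intCast_iff' B' 3 4).1 (by simpa using hB'))) h3
  have hD'0 : D' ≠ 0 := fun h => hD0 (by rw [hDD, h, mul_zero])
  have hVΔ0 : V.Δ ≠ 0 := hVΔ ▸ mul_ne_zero hΔ (pow_ne_zero 5 hD'0)
  have hdvdD : D' ∣ fiveD a b x y := Dvd.intro_left _ hFD.symm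
  have hdvdA : A' ∣ fiveC4 a b x y := Dvd.intro_left _ hFA.symm
  have hnD3 : ¬ (3 : ℤ) ∣ W.Δ → ¬ (3 : ℤ) ∣ D' := fun h h' => hg3 h (hD3D ▸ h'.mul_left _)
  have hy5 : (5 : ℤ) ∣ y := hy₀5.mul_left e₃
  have hgood : ∀ q : ℕ, q.Prime → (q : ℤ) ∣ y₀ → ¬ (q : ℤ) ∣ D' := fun q hq hqy h => by
    have h1 := dvd_fiveD_sub_one a b (hqy.trans hx1) (hqy.mul_left e₃)
    exact (Nat.prime_iff_prime_int.1 hq).not_isUnit
      (isUnit_of_dvd_one ((dvd_sub_right (h.trans hdvdD)).1 h1))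
  refine ⟨V, hVΔ0, fun q hq hqΔ hqc => ?_, ⟨?_, ?_, fun h => ?_⟩,
    fun hg => ?_, fun hg => ?_, fun ℓ hℓ hg hg' hℓ5 => ?_⟩
  · have hq' : Prime (q : ℤ) := Nat.prime_iff_prime_int.mp hq
    rw [hVΔ] at hqΔ
    rw [hV4] at hqc
    rcases eq_or_ne q 2 with rfl | hq2
    · exact hA' (by exact_mod_cast hqc)
    rcases eq_or_ne q 3 with rfl | hq3
    · by_cases h : (3 : ℤ) ∣ W.Δ
      · exact (hv3 h).1 (hA3A ▸ (show (3 : ℤ) ∣ A' by exact_mod_cast hqc).mul_left _)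
      · exact (hq'.dvd_or_dvd hqΔ).elim (fun h' => h (by exact_mod_cast h'))
          fun h' => hnD3 h (by exact_mod_cast hq'.dvd_of_dvd_pow h')
    by_cases hqy : (q : ℤ) ∣ y
    · have hqy₀ : (q : ℤ) ∣ y₀ := (hq'.dvd_or_dvd hqy).resolve_left
        fun h => hq3 (he₃' q hq h)
      rcases hq'.dvd_or_dvd hqΔ with h | h
      · exact hW q hq h ((dvd_sub_right (hqc.trans hdvdA)).1
          (dvd_fiveC4_sub a b (hqy₀.trans hx1) hqy))
      · exact hgood q hq hqy₀ (hq'.dvd_of_dvd_pow h)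
    · have hqΔ' : ¬ (q : ℤ) ∣ W.Δ := fun h =>
        hqy ((hy₀Δ q hq hq2 hq3 h).mul_left e₃)
      have key := fiveRes_identity a b x y
      rw [← W.c_relation] at key
      have hd : (q : ℤ) ∣ 2 ^ 26 * 3 ^ 12 * 5 ^ 5 * (1728 * W.Δ) ^ 6 * y ^ 31 :=
        key ▸ (((hq'.dvd_of_dvd_pow
          ((hq'.dvd_or_dvd hqΔ).resolve_left hqΔ')).trans hdvdD).mul_left _).add
          ((hqc.trans hdvdA).mul_left _)
      have n2 : ¬ (q : ℤ) ∣ 2 := fun h =>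
        hq2 ((Nat.prime_dvd_prime_iff_eq hq Nat.prime_two).1 (by exact_mod_cast h))
      have n3 : ¬ (q : ℤ) ∣ 3 := fun h =>
        hq3 ((Nat.prime_dvd_prime_iff_eq hq Nat.prime_three).1 (by exact_mod_cast h))
      have n5 : ¬ (q : ℤ) ∣ 5 := fun h => hqy (h.trans hy5)
      have n1728 : ¬ (q : ℤ) ∣ 2 ^ 6 * 3 ^ 3 := fun h => (hq'.dvd_or_dvd h).elim
        (fun h => n2 (hq'.dvd_of_dvd_pow h)) fun h => n3 (hq'.dvd_of_dvd_pow h)
      rcases hq'.dvd_or_dvd hd with hd | hd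
      · rcases hq'.dvd_or_dvd hd with hd | hd
        · rcases hq'.dvd_or_dvd hd with hd | hd
          · exact (hq'.dvd_or_dvd hd).elim (fun h => n2 (hq'.dvd_of_dvd_pow h))
              fun h => n3 (hq'.dvd_of_dvd_pow h)
          · exact n5 (hq'.dvd_of_dvd_pow hd)
        · exact (hq'.dvd_or_dvd (hq'.dvd_of_dvd_pow hd)).elim n1728 hqΔ'
      · exact hqy (hq'.dvd_of_dvd_pow hd)
  · rw [hVΔ]
    refine dvd_mul_of_dvd_right (dvd_pow ?_ (by norm_num)) _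
    exact IsCoprime.dvd_of_dvd_mul_left
      (((show IsCoprime (2 : ℤ) 3 from ⟨-1, 1, by norm_num⟩).pow_right).pow_right) (hDD ▸ hD2)
  · rw [hVΔ, padicValInt_mul_pow_five hΔ hD'0, ← padicValInt_eq_of_eq_mul (p := 2) hDD ?_ hD'0]
    · rw [padicValInt.eq_zero_of_not_dvd (p := 2) (z := W.Δ) (by exact_mod_cast hg2),
        padicValInt_two_of_not_four_dvd hD2 hD4]
      norm_num
    · exact fun h => absurd (Int.prime_two.dvd_of_dvd_pow (a := (3 : ℤ)) (n := l)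
        (Int.prime_two.dvd_of_dvd_pow (n := 12) (by exact_mod_cast h))) (by norm_num)
  · have : Fact (Nat.Prime 3) := ⟨Nat.prime_three⟩
    have h3Δ : (3 : ℤ) ∣ W.Δ := by
      by_contra hn
      rw [hVΔ] at h
      exact (Int.prime_three.dvd_or_dvd h).elim hn
        fun h => hnD3 hn (Int.prime_three.dvd_of_dvd_pow h)
    rw [hVΔ, padicValInt_mul_pow_five hΔ hD'0, ← padicValInt_eq_of_eq_mul (p := 3) hD3D ?_ hD'0]
    · exact (hv3 h3Δ).2
    · exact fun h => absurd (Int.prime_three.dvd_of_dvd_pow (a := (2 : ℤ)) (n := 2)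
        (Int.prime_three.dvd_of_dvd_pow (n := 12) (by exact_mod_cast h))) (by norm_num)
  · show ¬ ((3 : ℕ) : ℤ) ∣ V.Δ
    rw [hVΔ]
    intro h
    exact (Int.prime_three.dvd_or_dvd h).elim hg
      fun h => hnD3 hg (Int.prime_three.dvd_of_dvd_pow h)
  · show ¬ ((5 : ℕ) : ℤ) ∣ V.Δ
    rw [hVΔ]
    intro h
    have h5 : Prime ((5 : ℕ) : ℤ) := Nat.prime_iff_prime_int.1 Nat.prime_five
    exact (h5.dvd_or_dvd h).elim hg fun h => hgood 5 Nat.prime_five hy₀5 (h5.dvd_of_dvd_pow h)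
  · set f := Int.castRingHom ℚ
    have hx0 : x ≠ 0 := by
      rintro rfl
      have h : (5 : ℤ) ∣ 0 - 1 := hy₀5.trans hx1
      norm_num at h
    have hwQ : (w : ℚ) ≠ 0 := Int.cast_ne_zero.mpr hw0
    obtain ⟨φ, hφ⟩ := exists_torsionFive_equiv (W.map f) (V.map f)
      (by rw [WeierstrassCurve.map_Δ]; exact (map_ne_zero_iff f f.injective_int).mpr hΔ)
      (by rw [WeierstrassCurve.map_Δ]; exact (map_ne_zero_iff f f.injective_int).mpr hVΔ0)
      ((x : ℚ) / w) ((y : ℚ) / w) (div_ne_zero (Int.cast_ne_zero.mpr hx0) hwQ)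
      (by
        rw [WeierstrassCurve.map_c₆]
        exact (map_ne_zero_iff f f.injective_int).mpr (c₆_ne_zero_of_isSemistableModel W hW))
      (by
        rw [WeierstrassCurve.map_c₄, WeierstrassCurve.map_c₄, WeierstrassCurve.map_c₆, hV4]
        refine mul_left_cancel₀ (pow_ne_zero 20 hwQ) ?_
        rw [← fiveC4_homog, mul_div_cancel₀ _ hwQ, mul_div_cancel₀ _ hwQ]
        have h := congrArg f hFA
        rw [map_fiveC4, map_mul f (w ^ _) A', map_pow] at h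
        exact h.symm)
      (by
        rw [WeierstrassCurve.map_c₄, WeierstrassCurve.map_c₆, WeierstrassCurve.map_c₆, hV6]
        refine mul_left_cancel₀ (pow_ne_zero 30 hwQ) ?_
        rw [← fiveC6_homog, mul_div_cancel₀ _ hwQ, mul_div_cancel₀ _ hwQ]
        have h := congrArg f hFB
        rw [map_fiveC6, map_mul f (w ^ _) B', map_pow] at h
        exact h.symm)
    exact_mod_cast dvd_apOfModel_sub_of_torsion_equiv (traceIsAp Nat.prime_five) W V φ hφ hℓ hℓ5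
      hg hg'

/-- The switch at `5` of a supersingular curve. -/
theorem fiveSwitch_alt : FiveSwitch := by
  intro W hΔ hW hss _
  obtain ⟨V, hVΔ, hV, ⟨hV2, hVlift⟩, hg3, hg5, hcong⟩ :=
    exists_supersingular_five_model W hΔ hW hss
  by_cases hroot : ∀ Y : ℚ, qf (V.c₄ : ℚ) (V.c₆ : ℚ) Y ≠ 0
  · exact ⟨V, hVΔ, hV, ⟨by first | exact hV2 | exact Or.inl hV2, fun _ => hVlift⟩,
      modRepIsIrreducible_three_of_forall V hVΔ hroot, hg3, hg5, hcong⟩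
  push Not at hroot
  obtain ⟨y₁, hy₁⟩ := hroot
  set M : ℤ := 10368 * 5 * V.Δ with hM
  have h10368 : (10368 : ℤ) ∣ M := ⟨5 * V.Δ, by rw [hM]; ring⟩
  have h5 : (5 : ℤ) ∣ M := ⟨10368 * V.Δ, by rw [hM]; ring⟩
  obtain ⟨x, hxM, hxy, hirr⟩ := exists_fiveModel_irreducible_three V hVΔ hy₁ (M := M)
    (mul_ne_zero (by norm_num) hVΔ) h10368
  have hx : (10368 : ℤ) ∣ x - 1 := h10368.trans hxM
  have hD : ∀ p : ℕ, p.Prime → (p : ℤ) ∣ M → ¬ (p : ℤ) ∣ fiveD V.c₄ V.c₆ x M := fun p hp hpM h =>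
    (Nat.prime_iff_prime_int.1 hp).not_isUnit (isUnit_of_dvd_one
      ((dvd_sub_right h).1 (dvd_fiveD_sub_one V.c₄ V.c₆ (hpM.trans hxM) hpM)))
  have h2M : ((2 : ℕ) : ℤ) ∣ M := (show ((2 : ℕ) : ℤ) ∣ 10368 by norm_num).trans h10368
  have h3M : ((3 : ℕ) : ℤ) ∣ M := (show ((3 : ℕ) : ℤ) ∣ 10368 by norm_num).trans h10368
  have hkeep : ∀ p : ℕ, p.Prime → (p : ℤ) ∣ M →
      padicValInt p (fiveModel V x M).Δ = padicValInt p V.Δ := fun p hp hpM => by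
    have : Fact p.Prime := ⟨hp⟩
    rw [fiveModel_Δ V hx h10368, padicValInt_mul_pow_five hVΔ (fiveD_ne_zero V hx h10368),
      padicValInt.eq_zero_of_not_dvd (hD p hp hpM), mul_zero, add_zero]
  have hgood : ∀ p : ℕ, p.Prime → (p : ℤ) ∣ M → V.IsGoodPrimeFor p →
      (fiveModel V x M).IsGoodPrimeFor p := fun p hp hpM hg =>
    (fiveModel_isGoodPrimeFor_iff V hp hx h10368).mpr ⟨hg, hD p hp hpM⟩
  refine ⟨fiveModel V x M, fiveModel_Δ_ne_zero V hVΔ hx h10368,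
    fiveModel_isSemistableModel V hV hx h10368 h5 (dvd_mul_left _ _) hxy,
    ⟨?_, fun _ => ⟨?_, fun h => ?_⟩⟩, hirr,
    fun hg => hgood 3 Nat.prime_three h3M (hg3 hg),
    fun hg => hgood 5 Nat.prime_five (by exact_mod_cast h5) (hg5 hg),
    fun ℓ hℓ hg hg' hℓ5 => ?_⟩
  · have h2 : (2 : ℤ) ∣ (fiveModel V x M).Δ := by
      rw [fiveModel_Δ V hx h10368]
      exact hV2.mul_right _
    first | exact h2 | exact Or.inl h2
  · rw [hkeep 2 Nat.prime_two h2M]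
    exact hVlift.1
  · rw [hkeep 3 Nat.prime_three h3M]
    refine hVlift.2 (by_contra fun hn => ?_)
    exact hgood 3 Nat.prime_three h3M (by exact_mod_cast hn) (by exact_mod_cast h)
  · have hgV : V.IsGoodPrimeFor ℓ := ((fiveModel_isGoodPrimeFor_iff V hℓ hx h10368).mp hg').1
    simpa using (fiveModel_dvd_apOfModel_sub V hVΔ hV hx h10368 hℓ hℓ5 hgV hg').add
      (hcong ℓ hℓ hg hgV hℓ5)

end Fermat.Agent.GoodTwo
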