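/-
The 5-switch of a curve supersingular at `2` to a curve liftable at `3`.
-/
import Fermat.Agent.GoodTwo.FiveSwitchAlt

set_option autoImplicit false

namespace Fermat.Agent.GoodTwo

/-- The switch at `5` of a supersingular curve to a curve liftable at `3`. -/
theorem fiveSwitch : FiveSwitch := fiveSwitch_alt

end Fermat.Agent.GoodTwo
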