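import Fermat.Agent.Endgame.Chain
import Fermat.Agent.Lifting.Raise.ModelsExist
import Fermat.Agent.Lifting.Raise.SystemsExist
import Fermat.Agent.Lifting.Squarefree.Main

/-!
# Lifting at `3` and at `5` with all inputs discharged

* `exactConductorLevel_three'`: a semistable curve liftable at `3` with irreducible `E[3]`;
* `exactConductorLevel_five`: a semistable curve with irreducible `E[5]` and a bad prime other
  than `5`, from a squarefree residual level at `5`.
-/

set_option autoImplicit false

open WeierstrassCurve

namespace Fermat.Agent.GoodTwo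

/-- The bases of the raising argument exist. -/
theorem raisingBase : Lifting.RaisingBaseExists :=
  Lifting.raisingBaseExists Endgame.eigenformResidualRep Lifting.mazurLowering
    Endgame.noMinimalTWLevel Lifting.tresPrimeInLevel Lifting.ordinaryTpFive

/-- Lifting from a base. -/
theorem liftFromBase : Lifting.LiftFromRaisingBase :=
  Lifting.Raise.liftFromRaisingBase_of_models Endgame.eigenformResidualRep
    BadPrime.newformMultRep_modular Lifting.Raise.raiseModelsExist Lifting.Raise.raiseSystemsExist

/-- Exact conductor-level modularity of a curve liftable at `3`. -/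
theorem exactConductorLevel_three' {U : WeierstrassCurve ℤ} (hΔ : U.Δ ≠ 0)
    (hU : U.IsSemistableModel) (hU3 : Lifting.IsLiftableAt U 3)
    (hirr : U.ModRepIsIrreducible 3) : Mlc1IsModularModelOfExactConductorLevel U :=
  Lifting.exactConductorLevel_three Endgame.squarefreeModularAtThree raisingBase liftFromBase
    BadPrime.newformMultRep_modular hΔ hU hU3 hirr

/-- Exact conductor-level modularity from a squarefree residual level at `5`. -/
theorem exactConductorLevel_five {V : WeierstrassCurve ℤ} (hΔ : V.Δ ≠ 0)
    (hV : V.IsSemistableModel) (hirr : V.ModRepIsIrreducible 5)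
    (_hbad : ∃ q : ℕ, q.Prime ∧ q ≠ 5 ∧ (q : ℤ) ∣ V.Δ)
    {M : ℕ} (hM : 0 < M) (hsq : Squarefree M) (hres : V.IsResiduallyModularOfLevel 5 M)
    (hgood : V.IsGoodPrimeFor 5 → ¬ 5 ∣ M)
    (hextra : ∀ q : ℕ, q.Prime → q ∣ M → V.IsGoodPrimeFor q → q ≠ 5 → 5 ≤ q) :
    Mlc1IsModularModelOfExactConductorLevel V :=
  Lifting.exactConductorLevel_of_residual raisingBase liftFromBase
    BadPrime.newformMultRep_modular (Or.inr rfl) hΔ hV hirr
    ⟨Or.inr rfl, fun h => absurd h (by norm_num)⟩ hM hsq hres hgood hextra

end Fermat.Agent.GoodTwo
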