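import Fermat.Agent.GoodTwo.Contracts
import Fermat.Prelude.Def_FLTPrelim_ModularRep

/-!
# The statement of S50 from residual modularity at a squarefree level
-/

set_option autoImplicit false

open WeierstrassCurve WeierstrassCurve.Affine WeierstrassCurve.Affine.Point
open scoped WeierstrassCurve.Affine

namespace Fermat.Agent.GoodTwo

/-- A squarefree residual level has no cube of a prime and no `3²`. -/
theorem not_cube_dvd_of_semistableModularAtThree (h : SemistableModularAtThree)
    (W : WeierstrassCurve ℤ) (hΔ : W.Δ ≠ 0) (hW : W.IsSemistableModel)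
    (h3 : W.ModRepIsIrreducible 3) :
    ∃ M : ℕ, 0 < M ∧ W.IsResiduallyModularOfLevel 3 M ∧
      (∀ q : ℕ, q.Prime → q ≠ 3 → ¬ q ^ 3 ∣ M) ∧
      (3 ^ 2 ∣ M →
        ∀ A : ValuationSubring (AlgebraicClosure ℚ), A.LiesOverPrime 3 →
          ∀ x : Submodule.torsionBy ℤ
              ((W.map (Int.castRingHom ℚ))⁄(AlgebraicClosure ℚ)).Point (3 : ℕ),
            (∀ σ ∈ A.inertiaSubgroupIn ℚ, σ • x = x) → x = 0) := by
  obtain ⟨M, hM, hsq, hres, -⟩ := h W hΔ hW h3
  exact ⟨M, hM, hres,
    fun q hq _ hd => hq.not_isUnit (hsq q ((Dvd.intro q (by ring)).trans hd)),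
    fun hd => absurd (hsq 3 (by simpa [sq] using hd)) (by simp)⟩

end Fermat.Agent.GoodTwo
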