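import Fermat.Agent.Lifting.Squarefree.FiveIrreducible

/-!
# Irreducibility of `E[5]` by size

A stable `5`-line gives `u, w` coprime with `c₄³ u w⁵ = Δ (u² + 10 u w + 5 w²)³`. For a semistable
model this forces `w⁵ ∣ Δ` and `Δ ∣ u w⁵`, which is impossible when `Δ` is large with respect to
its fifth power part and to `c₄`.
-/

set_option autoImplicit false

open WeierstrassCurve

namespace Fermat.Agent.GoodTwo

theorem not_fiveLine_of_large {c D u : ℤ} {w B : ℕ} (hw : 0 < w) (huw : IsCoprime u (w : ℤ))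
    (hD : D ≠ 0) (hcD : IsCoprime c D)
    (hB : ∀ v : ℕ, v ^ 5 ∣ D.natAbs → v ^ 5 ≤ B)
    (h1 : 20 * B ^ 2 < D.natAbs) (h2 : 64 * c.natAbs ^ 3 * B ^ 6 < D.natAbs ^ 6)
    (heq : c ^ 3 * (u * (w : ℤ) ^ 5) = D * (u ^ 2 + 10 * u * w + 5 * (w : ℤ) ^ 2) ^ 3) :
    False := by
  have hwQ : IsCoprime ((w : ℤ) ^ 5) ((u ^ 2 + 10 * u * w + 5 * (w : ℤ) ^ 2) ^ 3) := by
    refine IsCoprime.pow ?_
    rw [show u ^ 2 + 10 * u * w + 5 * (w : ℤ) ^ 2 = u ^ 2 + (w : ℤ) * (10 * u + 5 * w) by ring]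
    exact (huw.symm.pow_right).add_mul_left_right _
  have hwD : (w : ℤ) ^ 5 ∣ D := hwQ.dvd_of_dvd_mul_right ⟨c ^ 3 * u, by rw [← heq]; ring⟩
  have hwD' : w ^ 5 ∣ D.natAbs := by
    rw [← Int.natCast_dvd]
    exact_mod_cast hwD
  have hwB : w ^ 5 ≤ B := hB w hwD'
  have hDu : D ∣ u * (w : ℤ) ^ 5 := (hcD.symm.pow_right (n := 3)).dvd_of_dvd_mul_left ⟨_, heq⟩
  have hu : u ≠ 0 := by
    rintro rfl
    rw [zero_mul, mul_zero, eq_comm, mul_eq_zero] at heq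
    rcases heq with h | h
    · exact hD h
    · have : (w : ℤ) ^ 2 = 0 := by
        have := pow_eq_zero_iff (n := 3) three_ne_zero |>.1 h
        linarith
      simp only [pow_eq_zero_iff two_ne_zero, Nat.cast_eq_zero] at this
      omega
  -- sizes
  set d : ℤ := |D| with hd
  set c' : ℤ := |c| with hc'
  set m : ℤ := |u| with hm
  have hm0 : 0 < m := abs_pos.2 hu
  have hd0 : 0 < d := abs_pos.2 hD
  have hw0 : (0 : ℤ) < w := by exact_mod_cast hw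
  have hwB' : (w : ℤ) ^ 5 ≤ B := by exact_mod_cast hwB
  have hwle : (w : ℤ) ≤ B := (le_self_pow₀ (by omega) (by norm_num)).trans hwB'
  have hdm : d ≤ m * (w : ℤ) ^ 5 := by
    have h : |D| ∣ |u * (w : ℤ) ^ 5| := (abs_dvd_abs _ _).2 hDu
    rw [abs_mul, abs_of_pos (pow_pos hw0 5)] at h
    exact Int.le_of_dvd (mul_pos hm0 (pow_pos hw0 5)) h
  have h1' : 20 * (B : ℤ) ^ 2 < d := by
    rw [hd, ← Int.natCast_natAbs]; exact_mod_cast h1
  have h2' : 64 * c' ^ 3 * (B : ℤ) ^ 6 < d ^ 6 := by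
    rw [hd, hc', ← Int.natCast_natAbs, ← Int.natCast_natAbs]; exact_mod_cast h2
  have hc0 : 0 ≤ c' := abs_nonneg c
  rcases lt_or_ge m (20 * w) with hsmall | hlarge
  · -- `|Δ| ≤ 20 w ⁶`
    have : m * (w : ℤ) ^ 5 ≤ 20 * (B : ℤ) * B := by
      refine mul_le_mul ?_ hwB' (by positivity) (by positivity)
      linarith
    linarith [show 20 * (B : ℤ) * B = 20 * (B : ℤ) ^ 2 by ring]
  · -- the quadratic form is at least `u ² / 2`
    set Q := u ^ 2 + 10 * u * (w : ℤ) + 5 * (w : ℤ) ^ 2 with hQ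
    have hQm : m ^ 2 ≤ 2 * Q := by
      have hlow : -(m * w) ≤ u * w := by
        rw [← neg_mul]; exact mul_le_mul_of_nonneg_right (neg_abs_le u) hw0.le
      have hmm : 20 * w * m ≤ m * m := mul_le_mul_of_nonneg_right hlarge hm0.le
      have : m ^ 2 = u ^ 2 := sq_abs u
      nlinarith [sq_nonneg (w : ℤ)]
    have hQ0 : 0 ≤ Q := by nlinarith [sq_nonneg m]
    have habs : c' ^ 3 * (m * (w : ℤ) ^ 5) = d * Q ^ 3 := by
      have := congrArg (fun x : ℤ => |x|) heq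
      simpa [abs_mul, abs_pow, abs_of_nonneg hQ0, hd, hc', hm, abs_of_pos hw0] using this
    have hQ3 : (m ^ 2) ^ 3 ≤ (2 * Q) ^ 3 := pow_le_pow_left₀ (sq_nonneg m) hQm 3
    have hm5 : d * m ^ 5 ≤ 8 * c' ^ 3 * B := by
      refine le_of_mul_le_mul_right ?_ hm0
      calc d * m ^ 5 * m = d * (m ^ 2) ^ 3 := by ring
        _ ≤ d * (2 * Q) ^ 3 := mul_le_mul_of_nonneg_left hQ3 hd0.le
        _ = 8 * (c' ^ 3 * (m * (w : ℤ) ^ 5)) := by rw [habs]; ring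
        _ ≤ 8 * (c' ^ 3 * (m * B)) := by gcongr
        _ = 8 * c' ^ 3 * B * m := by ring
    have hdB : d ≤ m * B := hdm.trans (mul_le_mul_of_nonneg_left hwB' hm0.le)
    have h5 : d ^ 5 ≤ (m * B) ^ 5 := pow_le_pow_left₀ hd0.le hdB 5
    have : d ^ 6 ≤ 8 * c' ^ 3 * (B : ℤ) ^ 6 := by
      calc d ^ 6 = d * d ^ 5 := by ring
        _ ≤ d * (m * B) ^ 5 := mul_le_mul_of_nonneg_left h5 hd0.le
        _ = d * m ^ 5 * (B : ℤ) ^ 5 := by ring
        _ ≤ 8 * c' ^ 3 * B * (B : ℤ) ^ 5 := mul_le_mul_of_nonneg_right hm5 (by positivity)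
        _ = 8 * c' ^ 3 * (B : ℤ) ^ 6 := by ring
    have : (0 : ℤ) ≤ c' ^ 3 * (B : ℤ) ^ 6 := by positivity
    linarith

/-- `E[5]` is irreducible when `Δ` is large against its fifth power part and `c₄`. -/
theorem modRepIsIrreducible_five_of_large (V : WeierstrassCurve ℤ) (hV0 : V.Δ ≠ 0)
    (hV : V.IsSemistableModel) (B : ℕ) (hB : ∀ w : ℕ, w ^ 5 ∣ V.Δ.natAbs → w ^ 5 ≤ B)
    (h1 : 20 * B ^ 2 < V.Δ.natAbs) (h2 : 64 * V.c₄.natAbs ^ 3 * B ^ 6 < V.Δ.natAbs ^ 6) :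
    V.ModRepIsIrreducible 5 := by
  by_contra h5
  have : (V.map (Int.castRingHom ℚ)).IsElliptic := ⟨by
    rw [WeierstrassCurve.map_Δ]
    simpa using hV0⟩
  obtain ⟨S, hj⟩ := Lifting.FiveSquare.exists_S (V.map (Int.castRingHom ℚ)) h5
  simp only [WeierstrassCurve.map_c₄, WeierstrassCurve.map_Δ, eq_intCast] at hj
  obtain ⟨u, w, hw, huw, hS⟩ : ∃ (u : ℤ) (w : ℕ), 0 < w ∧ IsCoprime u (w : ℤ) ∧
      S = u / w + 11 :=
    ⟨(S - 11).num, (S - 11).den, (S - 11).den_pos,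
      Int.isCoprime_iff_nat_coprime.2 (by simpa using (S - 11).reduced),
      by rw [Rat.num_div_den]; ring⟩
  refine not_fiveLine_of_large hw huw hV0 ?_ hB h1 h2 ?_
  · apply isCoprime_of_prime_dvd (fun h => hV0 h.2)
    intro z hz hzc hzΔ
    have hp : z.natAbs.Prime := Int.prime_iff_natAbs_prime.1 hz
    exact hV z.natAbs hp (Int.natAbs_dvd.2 hzΔ) (Int.natAbs_dvd.2 hzc)
  · have hwq : (w : ℚ) ≠ 0 := by exact_mod_cast hw.ne'
    rw [hS] at hj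
    field_simp at hj
    have : ((V.c₄ ^ 3 * (u * (w : ℤ) ^ 5) : ℤ) : ℚ)
        = ((V.Δ * (u ^ 2 + 10 * u * w + 5 * (w : ℤ) ^ 2) ^ 3 : ℤ) : ℚ) := by
      push_cast
      linear_combination hj
    exact_mod_cast this

end Fermat.Agent.GoodTwo
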