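import Fermat.Agent.TwoAdic.Switch.LocalTwo

/-!
# The Hesse family of a curve good at `2`

Some congruence class modulo `2 ^ 24` gives, after scaling by `u ∈ {1, 4}`, either a member
supersingular at `2` with `c₄ / 16` odd, or one multiplicative at `2`.

* ordinary: `(s : t) = (-b : a)`; with `e = a³ - b²` the values are `e (-4 b² - 3 e)`, `-3 a e²`
  and `-b e² (8 b² + 9 e)`, and `u = 4`;
* supersingular with `c₄ / 16` odd: `(1 : 0)` and `u = 1`;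
* supersingular with `32 ∣ c₄`: `(8 : 1)` and `u = 4`, a multiplicative member.
-/

set_option autoImplicit false

namespace Fermat.Agent.GoodTwo

open Fermat.Agent.TwoAdic

/-- The member `(s : t)`, scaled by `u`, is supersingular at `2` with `c₄ / 16` odd. -/
def IsSupersingularMember (a b D s t u : ℤ) : Prop :=
  ∃ C4 C6 D' : ℤ, hesseC4 a b s t = u ^ 4 * C4 ∧ hesseC6 a b s t = u ^ 6 * C6 ∧
    D * hesseD a b s t ^ 3 = u ^ 12 * D' ∧
    (16 : ℤ) ∣ C4 ∧ ¬ (32 : ℤ) ∣ C4 ∧ C6 % 32 = 8 ∧ ¬ (2 : ℤ) ∣ D'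

/-- The member `(s : t)`, scaled by `u`, is multiplicative at `2`. -/
def IsMultiplicativeMember (a b D s t u : ℤ) : Prop :=
  ∃ C4 C6 D' : ℤ, hesseC4 a b s t = u ^ 4 * C4 ∧ hesseC6 a b s t = u ^ 6 * C6 ∧
    D * hesseD a b s t ^ 3 = u ^ 12 * D' ∧ Odd C4 ∧ C6 % 4 = 3 ∧ (2 : ℤ) ∣ D'

/-- The class `(-b : a)` of an ordinary curve is supersingular. -/
theorem supersingularMember_of_ordinary {a b D s t : ℤ} (hrel : a ^ 3 - b ^ 2 = 1728 * D)
    (ha : Odd a) (hb : b % 4 = 3) (hD : ¬ (2 : ℤ) ∣ D)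
    (hs : (2 : ℤ) ^ 24 ∣ s + b) (ht : (2 : ℤ) ^ 24 ∣ t - a) :
    IsSupersingularMember a b D s t 4 := by
  obtain ⟨⟨x, hx⟩, ⟨y, hy⟩, ⟨z, hz⟩⟩ :=
    dvd_hesse_sub (a := a) (b := b) (s := s) (t := t) (s' := -b) (t' := a)
      (n := 2 ^ 24) (by simpa using hs) ht
  have hA : a ^ 3 = b ^ 2 + 64 * (27 * D) := by linear_combination hrel
  have hwodd : Odd (27 * D) := (by decide : Odd (27 : ℤ)).mul
    (Int.not_even_iff_odd.1 fun h => hD (even_iff_two_dvd.1 h))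
  have hbodd : Odd b := Int.odd_iff.2 (by omega)
  set w := 27 * D with hw
  have hd0 : hesseD a b (-b) a = 2 ^ 8 * (-(w * (b ^ 2 + 48 * w))) := by
    rw [show hesseD a b (-b) a = b ^ 4 + 2 * b ^ 2 * a ^ 3 - 3 * (a ^ 3) ^ 2 by
      simp only [hesseD]; ring, hA]
    ring
  have hc0 : hesseC4 a b (-b) a = 4 ^ 4 * (-48 * (a * w ^ 2)) := by
    rw [show hesseC4 a b (-b) a = -3 * a * (a ^ 3 - b ^ 2) ^ 2 by simp only [hesseC4]; ring, hA]
    ring
  have hc0' : hesseC6 a b (-b) a = 4 ^ 6 * (-8 * (b * w ^ 2 * (b ^ 2 + 72 * w))) := by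
    rw [show hesseC6 a b (-b) a =
      -b * (a ^ 3 - b ^ 2) ^ 2 * (8 * b ^ 2 + 9 * (a ^ 3 - b ^ 2)) by
        simp only [hesseC6]; ring, hA]
    ring
  set o := -(w * (b ^ 2 + 48 * w)) + 2 ^ 16 * x with ho
  have hoo : Odd o := by
    rw [ho]
    exact ((hwodd.mul ((hbodd.pow).add_even ⟨24 * w, by ring⟩)).neg).add_even ⟨2 ^ 15 * x, by ring⟩
  refine ⟨-48 * (a * w ^ 2) + 2 ^ 16 * y, -8 * (b * w ^ 2 * (b ^ 2 + 72 * w)) + 2 ^ 12 * z,
    D * o ^ 3, by linear_combination hy + hc0, by linear_combination hz + hc0', ?_,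
    ⟨-3 * (a * w ^ 2) + 2 ^ 12 * y, by ring⟩, ?_, ?_, ?_⟩
  · rw [show hesseD a b s t = 2 ^ 8 * o by rw [ho]; linear_combination hx + hd0]
    ring
  · have h : Odd (a * w ^ 2) := ha.mul hwodd.pow
    rw [Int.odd_iff] at h
    omega
  · have h : (b * w ^ 2 * (b ^ 2 + 72 * w)) % 4 = 3 := by
      refine (intCast_eq_iff_emod _ 4 3 (by norm_num)).1 ?_
      push_cast
      have hw2 : (w : ZMod 4) = 1 ∨ (w : ZMod 4) = 3 := by
        rw [Int.odd_iff] at hwodd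
        rcases (show w % 4 = 1 ∨ w % 4 = 3 by omega) with h | h
        · exact Or.inl ((intCast_eq_iff_emod w 4 1 (by norm_num)).2 h)
        · exact Or.inr ((intCast_eq_iff_emod w 4 3 (by norm_num)).2 h)
      rw [(intCast_eq_iff_emod b 4 3 (by norm_num)).2 hb]
      rcases hw2 with h | h <;> rw [h] <;> decide
    omega
  · intro h
    rcases Int.prime_two.dvd_or_dvd h with h | h
    · exact hD h
    · exact Int.not_even_iff_odd.2 hoo (even_iff_two_dvd.2 (Int.prime_two.dvd_of_dvd_pow h))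

/-- The class `(1 : 0)` of a supersingular curve with `c₄ / 16` odd. -/
theorem supersingularMember_of_supersingular {a b D s t : ℤ} (hD : ¬ (2 : ℤ) ∣ D)
    (ha : (16 : ℤ) ∣ a) (ha' : ¬ (32 : ℤ) ∣ a) (hb : b % 32 = 8)
    (hs : (2 : ℤ) ^ 24 ∣ s - 1) (ht : (2 : ℤ) ^ 24 ∣ t) :
    IsSupersingularMember a b D s t 1 := by
  obtain ⟨⟨x, hx⟩, ⟨y, hy⟩, ⟨z, hz⟩⟩ :=
    dvd_hesse_sub (a := a) (b := b) (s := s) (t := t) (s' := 1) (t' := 0)
      (n := 2 ^ 24) hs (by simpa using ht)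
  simp only [hesseD_zero, hesseC4_zero, hesseC6_zero, one_pow, mul_one] at hx hy hz
  refine ⟨a + 2 ^ 24 * y, b + 2 ^ 24 * z, D * (1 + 2 ^ 24 * x) ^ 3,
    by linear_combination hy, by linear_combination hz, ?_,
    ha.add ⟨2 ^ 20 * y, by ring⟩, ?_, by omega, ?_⟩
  · rw [eq_add_of_sub_eq hx]; ring
  · omega
  · intro h
    rcases Int.prime_two.dvd_or_dvd h with h | h
    · exact hD h
    · have := Int.prime_two.dvd_of_dvd_pow h
      omega

/-- The class `(8 : 1)` of a supersingular curve with `32 ∣ c₄` is multiplicative. -/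
theorem multiplicativeMember_of_supersingular {a b D s t : ℤ} (ha : (32 : ℤ) ∣ a)
    (hb : b % 32 = 8) (hs : (2 : ℤ) ^ 24 ∣ s - 8) (ht : (2 : ℤ) ^ 24 ∣ t - 1) :
    IsMultiplicativeMember a b D s t 4 := by
  obtain ⟨α, rfl⟩ := ha
  obtain ⟨β, rfl⟩ : (8 : ℤ) ∣ b := by omega
  have hβ : β % 4 = 1 := by omega
  obtain ⟨⟨x, hx⟩, ⟨y, hy⟩, ⟨z, hz⟩⟩ :=
    dvd_hesse_sub (a := 32 * α) (b := 8 * β) (n := 2 ^ 24) hs ht
  set c := 512 * α + 64 * β + 1536 * α ^ 2 + 32 * α * β + (-384 * α ^ 3 + β ^ 2) with hc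
  set c' := 512 * β + 49152 * α ^ 2 + 3840 * α * β + 160 * β ^ 2 + 1920 * α ^ 2 * β
    + (36864 * α ^ 4 - 48 * α * β ^ 2) + (576 * α ^ 3 * β - β ^ 3) with hc'
  have hC : hesseC4 (32 * α) (8 * β) 8 1 = 4 ^ 4 * c := by
    rw [hc]; simp only [hesseC4]; ring
  have hC' : hesseC6 (32 * α) (8 * β) 8 1 = 4 ^ 6 * c' := by
    rw [hc']; simp only [hesseC6]; ring
  have hD0 : hesseD (32 * α) (8 * β) 8 1 = 2 ^ 9 * (8 - 24 * α - β - 6 * α ^ 2) := by
    simp only [hesseD]; ring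
  refine ⟨c + 2 ^ 16 * y, c' + 2 ^ 12 * z, 8 * (D * (8 - 24 * α - β - 6 * α ^ 2 + 2 ^ 15 * x) ^ 3),
    by linear_combination hy + hC, by linear_combination hz + hC', ?_, ?_, ?_,
    dvd_mul_of_dvd_left (by norm_num) _⟩
  · rw [eq_add_of_sub_eq hx, hD0]; ring
  · rw [hc]
    exact (Even.add_odd ⟨256 * α + 32 * β + 768 * α ^ 2 + 16 * α * β, by ring⟩
      (Even.add_odd ⟨-192 * α ^ 3, by ring⟩
        ((Int.odd_iff.2 (by omega : β % 2 = 1)).pow))).add_even ⟨2 ^ 15 * y, by ring⟩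
  · refine (intCast_eq_iff_emod _ 4 3 (by norm_num)).1 ?_
    rw [hc']
    push_cast
    rw [(intCast_eq_iff_emod β 4 1 (by norm_num)).2 hβ]
    generalize (α : ZMod 4) = x'
    generalize (z : ZMod 4) = z'
    revert x' z'
    decide

/-- The class at `2` of a curve good at `2`. -/
theorem exists_goodTwo_class {a b D : ℤ} (hrel : a ^ 3 - b ^ 2 = 1728 * D) (hD : ¬ (2 : ℤ) ∣ D)
    (hW : (Odd a ∧ b % 4 = 3) ∨ ((16 : ℤ) ∣ a ∧ b % 32 = 8)) :
    ∃ s₀ t₀ u : ℤ, ¬ (2 ∣ s₀ ∧ 2 ∣ t₀) ∧ (u = 1 ∨ u = 4) ∧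
      ∀ s t : ℤ, (2 : ℤ) ^ 24 ∣ s - s₀ → (2 : ℤ) ^ 24 ∣ t - t₀ →
        IsSupersingularMember a b D s t u ∨ IsMultiplicativeMember a b D s t u := by
  rcases hW with ⟨ha, hb⟩ | ⟨ha, hb⟩
  · exact ⟨-b, a, 4, fun h => Int.not_even_iff_odd.2 ha (even_iff_two_dvd.2 h.2), Or.inr rfl,
      fun s t hs ht => Or.inl
        (supersingularMember_of_ordinary hrel ha hb hD (by simpa using hs) ht)⟩
  by_cases ha' : (32 : ℤ) ∣ a
  · exact ⟨8, 1, 4, fun h => by norm_num at h, Or.inr rfl, fun s t hs ht =>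
      Or.inr (multiplicativeMember_of_supersingular ha' hb hs ht)⟩
  · exact ⟨1, 0, 1, fun h => by norm_num at h, Or.inl rfl, fun s t hs ht => Or.inl
      (supersingularMember_of_supersingular hD ha ha' hb hs (by simpa using ht))⟩

end Fermat.Agent.GoodTwo
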