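import Fermat.Agent.GoodTwo.Contracts
import Fermat.Agent.TwoAdic.Switch.LocalClass

/-!
# Integral models with prescribed `c₄`, `c₆`: the supersingular case at `2`

With `a₁ = 0`, `a₃ = 1` the invariants are `c₄ = 16 (a₂² - 3 a₄)` and `c₆ ≡ 8 (mod 32)`.
-/

set_option autoImplicit false

namespace Fermat.Agent.GoodTwo

/-- The residues `a₂` modulo `27` when `3 ∤ c₄`. -/
theorem exists_a2_residue : ∀ u e : ZMod 27, 9 * u ≠ 0 → 64 * u ^ 3 = e ^ 2 →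
    ∃ a : ZMod 27, 9 * (a ^ 2 - u) = 0 ∧ 4 * a ^ 3 - 12 * a * u - e = 0 := by
  decide +kernel

/-- **Kraus' conditions, supersingular at `2`.** -/
theorem exists_model_supersingular (C4 C6 D : ℤ) (hrel : C4 ^ 3 - C6 ^ 2 = 1728 * D)
    (h4 : 16 ∣ C4) (h6 : C6 % 32 = 8) (h3 : ¬ 3 ∣ C4 ∨ 27 ∣ C6) :
    ∃ V : WeierstrassCurve ℤ, V.c₄ = C4 ∧ V.c₆ = C6 ∧ V.Δ = D := by
  obtain ⟨u, rfl⟩ := h4
  obtain ⟨m, rfl⟩ : ∃ m, C6 = 32 * m + 8 := ⟨C6 / 32, by omega⟩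
  have hrel' : 64 * u ^ 3 - (4 * m + 1) ^ 2 = 27 * D := by linarith
  obtain ⟨a, ha3, ha27⟩ : ∃ a : ℤ, 3 ∣ a ^ 2 - u ∧ 27 ∣ a ^ 3 - 3 * a * u - 7 - m := by
    by_cases hu : (3 : ℤ) ∣ u
    · refine ⟨0, by simpa using hu.neg_right, ?_⟩
      have h27 : (27 : ℤ) ∣ 32 * m + 8 := h3.resolve_left fun h => h (hu.mul_left 16)
      omega
    · have hk : ∀ n : ℤ, (27 : ℤ) ∣ n ↔ (n : ZMod 27) = 0 := fun n =>
        (ZMod.intCast_zmod_eq_zero_iff_dvd n 27).symm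
      have hz : (64 * (u : ZMod 27) ^ 3) = (4 * (m : ZMod 27) + 1) ^ 2 := by
        have := (hk _).1 ⟨D, hrel'⟩
        push_cast at this
        exact sub_eq_zero.1 this
      have h9 : 9 * (u : ZMod 27) ≠ 0 := fun h => hu (by
        have := (hk (9 * u)).2 (by push_cast; exact h)
        omega)
      obtain ⟨b, hb1, hb2⟩ := exists_a2_residue _ _ h9 hz
      obtain ⟨a, rfl⟩ := ZMod.intCast_surjective b
      refine ⟨a, ?_, ?_⟩
      · have := (hk (9 * (a ^ 2 - u))).2 (by push_cast; exact hb1)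
        omega
      · have h := (hk (4 * a ^ 3 - 12 * a * u - (4 * m + 1))).2 (by push_cast; exact hb2)
        have e : 4 * a ^ 3 - 12 * a * u = 4 * (a ^ 3 - 3 * a * u) := by ring
        rw [e] at h
        omega
  obtain ⟨a4, ha4⟩ := ha3
  obtain ⟨a6, ha6⟩ := ha27
  refine ⟨⟨0, a, 1, a4, a6⟩, ?_⟩
  have hc4 : (⟨0, a, 1, a4, a6⟩ : WeierstrassCurve ℤ).c₄ = 16 * u := by
    simp only [WeierstrassCurve.c₄, WeierstrassCurve.b₂, WeierstrassCurve.b₄]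
    linear_combination 16 * ha4
  have hc6 : (⟨0, a, 1, a4, a6⟩ : WeierstrassCurve ℤ).c₆ = 32 * m + 8 := by
    simp only [WeierstrassCurve.c₆, WeierstrassCurve.b₂, WeierstrassCurve.b₄,
      WeierstrassCurve.b₆]
    linear_combination -96 * a * ha4 + 32 * ha6
  refine ⟨hc4, hc6, ?_⟩
  have h := (⟨0, a, 1, a4, a6⟩ : WeierstrassCurve ℤ).c_relation
  rw [hc4, hc6, hrel] at h
  exact mul_left_cancel₀ (by norm_num) h

/-- The discriminant is odd when `c₆ ≡ 8 (mod 32)` and `16 ∣ c₄`. -/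
theorem not_two_dvd_of_supersingular {C4 C6 D : ℤ} (hrel : C4 ^ 3 - C6 ^ 2 = 1728 * D)
    (h4 : 16 ∣ C4) (h6 : C6 % 32 = 8) : ¬ (2 : ℤ) ∣ D := by
  obtain ⟨u, rfl⟩ := h4
  obtain ⟨m, rfl⟩ : ∃ m, C6 = 32 * m + 8 := ⟨C6 / 32, by omega⟩
  rintro ⟨d, rfl⟩
  have : 64 * u ^ 3 - 8 * (2 * m ^ 2 + m) - 1 = 54 * d := by linarith
  omega

/-- A model with these invariants is supersingular at `2` in the sense of `IsSupersingularTwo`. -/
theorem isSupersingularTwo_of_invariants {V : WeierstrassCurve ℤ} {C4 C6 : ℤ}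
    (hc4 : V.c₄ = C4) (hc6 : V.c₆ = C6) (h4 : 16 ∣ C4) (h4' : ¬ 32 ∣ C4) (h6 : C6 % 32 = 8) :
    IsSupersingularTwo V := by
  refine ⟨?_, hc4 ▸ h4, hc4 ▸ h4', hc6 ▸ h6⟩
  exact not_two_dvd_of_supersingular (by rw [← hc4, ← hc6]; exact V.c_relation.symm) h4 h6

/-- The dichotomy of a semistable model with good reduction at `2`. -/
theorem goodTwo_dichotomy (W : WeierstrassCurve ℤ) (hW : W.IsSemistableModel)
    (_hgood : ¬ (2 : ℤ) ∣ W.Δ) :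
    (Odd W.c₄ ∧ W.c₆ % 4 = 3) ∨ (16 ∣ W.c₄ ∧ W.c₆ % 32 = 8) :=
  (TwoAdic.twoTrichotomy W hW).imp id fun h => ⟨h.2.1, h.2.2⟩

end Fermat.Agent.GoodTwo
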