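/-
Local behaviour of the switch at `3` of a curve good at `2`.
-/
import Fermat.Agent.TwoAdic.Switch.Main

set_option autoImplicit false

namespace Fermat.Agent.GoodTwo

open Fermat.Agent.TwoAdic

/-- The classes at the odd bad primes and at `3`. -/
def switchClassOdd (a b D : ℤ) (q : ℕ) : ℤ × ℤ :=
  if q = 3 ∧ D % 3 = 1 ∧ ¬ (3 : ℤ) ∣ a then (b, 1) else (1, 0)

/-- `3` good for `W`: the member is good at `3`, with `3 ∣ c₄` or `Δ ≡ 2 (mod 3)`. -/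
theorem switch_three_good {W : WeierstrassCurve ℤ} (h3D : ¬ (3 : ℤ) ∣ W.Δ)
    {s t u C4 C6 D' : ℤ} (hu3 : IsCoprime (3 : ℤ) u)
    (h4 : hesseC4 W.c₄ W.c₆ s t = u ^ 4 * C4) (h6 : hesseC6 W.c₄ W.c₆ s t = u ^ 6 * C6)
    (hΔ' : W.Δ * hesseD W.c₄ W.c₆ s t ^ 3 = u ^ 12 * D')
    (hs : (27 : ℤ) ∣ s - (switchClassOdd W.c₄ W.c₆ W.Δ 3).1)
    (ht : (27 : ℤ) ∣ t - (switchClassOdd W.c₄ W.c₆ W.Δ 3).2) :
    ¬ (3 : ℤ) ∣ D' ∧ (¬ (3 : ℤ) ∣ C4 ∨ 27 ∣ C6) ∧ ((3 : ℤ) ∣ C4 ∨ D' % 3 = 2) := by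
  have key : ∀ n : ℤ, (3 : ℤ) ∣ n ↔ (n : ZMod 3) = 0 := fun n =>
    (ZMod.intCast_zmod_eq_zero_iff_dvd n 3).symm
  have hu : (u : ZMod 3) = 1 ∨ (u : ZMod 3) = 2 := by
    have h : ¬ (3 : ℤ) ∣ u := Int.prime_three.coprime_iff_not_dvd.1 hu3
    rw [key] at h
    revert h
    generalize (u : ZMod 3) = x
    revert x
    decide
  have hcast := congrArg (fun z : ℤ => (z : ZMod 3)) W.c_relation
  push_cast at hcast
  rw [show (1728 : ZMod 3) = 0 by decide, zero_mul] at hcast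
  have h4' := congrArg (fun z : ℤ => (z : ZMod 3)) h4
  have hΔ3 := congrArg (fun z : ℤ => (z : ZMod 3)) hΔ'
  simp only [hesseC4] at h4'
  simp only [hesseD] at hΔ3
  push_cast at h4' hΔ3
  have e2 : D' % 3 = 2 ↔ (D' : ZMod 3) = 2 :=
    (TwoAdic.intCast_eq_iff_emod D' 3 2 (by norm_num)).symm
  by_cases h3a : (3 : ℤ) ∣ W.c₄
  · rw [switchClassOdd, if_neg fun h => h.2.2 h3a] at hs ht
    obtain ⟨h1, h2⟩ := switch_three h3D hu3 h4 h6 hΔ' hs ht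
    refine ⟨h1, h2, Or.inl ?_⟩
    obtain ⟨-, hd2, -⟩ := dvd_hesse_sub (a := W.c₄) (b := W.c₆) hs ht
    rw [hesseC4_zero, one_pow, mul_one, h4] at hd2
    have := ((show (3 : ℤ) ∣ 27 by norm_num).trans hd2).add h3a
    rw [sub_add_cancel] at this
    exact (Int.prime_three.dvd_or_dvd this).resolve_left fun h =>
      Int.prime_three.coprime_iff_not_dvd.1 hu3 (Int.prime_three.dvd_of_dvd_pow h)
  · have hs3 := (key _).1 ((show (3 : ℤ) ∣ 27 by norm_num).trans hs)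
    have ht3 := (key _).1 ((show (3 : ℤ) ∣ 27 by norm_num).trans ht)
    rw [key] at h3a
    rw [key] at h3D
    rw [key, key, e2]
    have hfin : ∀ a b D s t u C D' : ZMod 3, a ≠ 0 → D ≠ 0 → 0 = a ^ 3 - b ^ 2 →
        (u = 1 ∨ u = 2) → ((D = 1 ∧ s - b = 0 ∧ t - 1 = 0) ∨ (D ≠ 1 ∧ s - 1 = 0 ∧ t = 0)) →
        a * s ^ 4 + 4 * b * s ^ 3 * t + 6 * a ^ 2 * s ^ 2 * t ^ 2 + 4 * a * b * s * t ^ 3
          + (-3 * a ^ 3 + 4 * b ^ 2) * t ^ 4 = u ^ 4 * C →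
        D * (s ^ 4 - 6 * a * s ^ 2 * t ^ 2 - 8 * b * s * t ^ 3 - 3 * a ^ 2 * t ^ 4) ^ 3
          = u ^ 12 * D' →
        D' ≠ 0 ∧ C ≠ 0 ∧ D' = 2 := by
      have hb : ∀ b : ZMod 3, b ^ 2 = 1 ∨ b = 0 := by decide
      have hp : ∀ x : ZMod 3, (x = 1 ∨ x = 2) → x ^ 4 = 1 ∧ x ^ 12 = 1 := by decide
      intro a b D s t u C D' ha hD hab hu hcls hC hD'
      rw [(hp u hu).1, one_mul] at hC
      rw [(hp u hu).2, one_mul] at hD'
      subst hC hD'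
      rcases hcls with ⟨rfl, hs, ht⟩ | ⟨hD1, hs, rfl⟩
      · obtain rfl := sub_eq_zero.1 hs
        obtain rfl := sub_eq_zero.1 ht
        revert a s
        decide
      · obtain rfl := sub_eq_zero.1 hs
        revert a b D
        decide
    obtain ⟨h1, h2, h3⟩ := hfin _ _ _ _ _ _ _ _ h3a h3D hcast hu (by
      have hD1 : W.Δ % 3 = 1 ↔ (W.Δ : ZMod 3) = 1 := by
        rw [← Nat.cast_one (R := ZMod 3)]
        exact (TwoAdic.intCast_eq_iff_emod W.Δ 3 1 (by norm_num)).symm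
      rw [switchClassOdd] at hs3 ht3
      rw [← key] at h3a
      by_cases hc : W.Δ % 3 = 1
      · rw [if_pos ⟨rfl, hc, h3a⟩] at hs3 ht3
        push_cast at hs3 ht3
        exact Or.inl ⟨hD1.1 hc, hs3, ht3⟩
      · rw [if_neg fun h => hc h.2.1] at hs3 ht3
        push_cast at hs3 ht3
        exact Or.inr ⟨fun h => hc (hD1.2 h), hs3, by simpa using ht3⟩) h4' hΔ3
    exact ⟨h1, Or.inl h2, Or.inr h3⟩

/-- Away from `2` the member of the class is semistable, with bounded valuations. -/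
theorem switch_prime {W : WeierstrassCurve ℤ} (hΔ : W.Δ ≠ 0) (hW : W.IsSemistableModel)
    {q : ℕ} (hq : q.Prime) (h2 : q ≠ 2) {s t u C4 D' : ℤ} (hst : IsCoprime s t)
    (hqu : ¬ (q : ℤ) ∣ u)
    (h4 : hesseC4 W.c₄ W.c₆ s t = u ^ 4 * C4)
    (hΔ' : W.Δ * hesseD W.c₄ W.c₆ s t ^ 3 = u ^ 12 * D')
    (hD0 : hesseD W.c₄ W.c₆ s t ≠ 0) (hD'0 : D' ≠ 0) (hu0 : u ≠ 0)
    (hcls : (q : ℤ) ∣ W.Δ → (q : ℤ) ^ 3 ∣ s - (switchClassOdd W.c₄ W.c₆ W.Δ q).1 ∧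
      (q : ℤ) ^ 3 ∣ t - (switchClassOdd W.c₄ W.c₆ W.Δ q).2)
    (hthree : q = 3 → ¬ (q : ℤ) ∣ W.Δ → ¬ (3 : ℤ) ∣ D')
    (hsq : ¬ (q = 3 ∨ (q : ℤ) ∣ W.Δ) → ¬ (q : ℤ) ^ 2 ∣ hesseD W.c₄ W.c₆ s t) :
    padicValInt q D' ≤ padicValInt q W.Δ + 3 ∧
      ((q : ℤ) ∣ D' → ¬ (q : ℤ) ∣ C4) ∧ ((q : ℤ) ∣ W.Δ → ¬ (q : ℤ) ∣ C4) := by
  set a := W.c₄ with hadef
  set b := W.c₆ with hbdef
  set D := W.Δ with hDdef
  have hrel : a ^ 3 - b ^ 2 = 1728 * D := W.c_relation.symm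
  have : Fact q.Prime := ⟨hq⟩
  have hq' := Nat.prime_iff_prime_int.1 hq
  have hval : padicValInt q D' = padicValInt q D + 3 * padicValInt q (hesseD a b s t) := by
    have h := congrArg (padicValInt q) hΔ'
    rw [padicValInt.mul hΔ (pow_ne_zero 3 hD0), padicValInt.mul (pow_ne_zero 12 hu0) hD'0,
      padicValInt.eq_zero_of_not_dvd (fun hd => hqu (hq'.dvd_of_dvd_pow hd)), zero_add,
      show hesseD a b s t ^ 3 = hesseD a b s t * hesseD a b s t * hesseD a b s t by ring,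
      padicValInt.mul (mul_ne_zero hD0 hD0) hD0, padicValInt.mul hD0 hD0] at h
    omega
  have hC : ∀ {n : ℤ}, (q : ℤ) ∣ n - u ^ 4 * C4 → ¬ (q : ℤ) ∣ n → ¬ (q : ℤ) ∣ C4 :=
    fun h hn hc => hn (by
      have h' := h.add (hc.mul_left (u ^ 4))
      rwa [sub_add_cancel] at h')
  have hle : ¬ (q : ℤ) ^ 2 ∣ hesseD a b s t → padicValInt q (hesseD a b s t) ≤ 1 := fun h => by
    by_contra hgt
    exact h ((padicValInt_dvd_iff 2 _).2 (Or.inr (by omega)))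
  by_cases hqD : (q : ℤ) ∣ D
  · obtain ⟨hs', ht'⟩ := hcls hqD
    rw [switchClassOdd, if_neg fun h => by
      obtain ⟨rfl, h31, -⟩ := h
      obtain ⟨c, hc⟩ := hqD
      push_cast at hc
      omega] at hs' ht'
    obtain ⟨hd1, hd2, -⟩ := dvd_hesse_sub (a := a) (b := b)
      ((dvd_pow_self (q : ℤ) (by norm_num)).trans hs')
      ((dvd_pow_self (q : ℤ) (by norm_num)).trans ht')
    rw [hesseD_zero, one_pow] at hd1
    rw [hesseC4_zero, one_pow, mul_one] at hd2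
    have hDunit : ¬ (q : ℤ) ∣ hesseD a b s t := fun h =>
      hq'.not_dvd_one ((dvd_sub_right h).1 hd1)
    rw [padicValInt.eq_zero_of_not_dvd hDunit] at hval
    have hu4 : ¬ (q : ℤ) ∣ C4 :=
      hC (n := a) (by rw [← h4, ← neg_sub]; exact hd2.neg_right) (hW q hq hqD)
    exact ⟨by omega, fun _ => hu4, fun _ => hu4⟩
  by_cases h3q : q = 3
  · have h := hthree h3q hqD
    subst h3q
    exact ⟨by rw [padicValInt.eq_zero_of_not_dvd (p := 3) (by exact_mod_cast h)]; exact Nat.zero_le _,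
      fun hd => absurd (by exact_mod_cast hd) h, fun hd => absurd hd hqD⟩
  · have hqS : ¬ (q = 3 ∨ (q : ℤ) ∣ D) := fun h => h.elim h3q hqD
    have h3 : q ≠ 3 := fun h => hqS (Or.inl h)
    have := hle (hsq hqS)
    refine ⟨by omega, fun hdiv => ?_, fun hd => absurd hd hqD⟩
    have hqh : (q : ℤ) ∣ hesseD a b s t := by
      rcases hq'.dvd_or_dvd (hΔ' ▸ hdiv.mul_left _ : (q : ℤ) ∣ D * hesseD a b s t ^ 3) with h | h
      · exact absurd h hqD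
      · exact hq'.dvd_of_dvd_pow h
    have he : ¬ (q : ℤ) ∣ a ^ 3 - b ^ 2 := by
      rw [hrel]
      intro h
      rcases hq'.dvd_or_dvd h with h | h
      · rw [show (1728 : ℤ) = 2 ^ 6 * 3 ^ 3 by norm_num] at h
        rcases hq'.dvd_or_dvd h with h | h
        · exact prime_int_not_dvd hq Nat.prime_two h2 (hq'.dvd_of_dvd_pow h)
        · exact prime_int_not_dvd hq Nat.prime_three h3 (hq'.dvd_of_dvd_pow h)
      · exact hqD h
    exact hC (n := hesseC4 a b s t) (by rw [h4, sub_self]; exact dvd_zero _)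
      (not_dvd_hesseC4_of_dvd_hesseD hq h2 h3 he hst hqh)

end Fermat.Agent.GoodTwo
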