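/-
The switch at `3` of a curve good at `2`.
-/
import Fermat.Agent.GoodTwo.ThreeSwitchLocal
import Fermat.Agent.GoodTwo.Contracts
import Fermat.Agent.GoodTwo.HesseTwo
import Fermat.Agent.GoodTwo.KrausSupersingular
import Fermat.Agent.GoodTwo.FiveBySize
import Fermat.Agent.TwoAdic.Switch.Curve

set_option autoImplicit false

namespace Fermat.Agent.GoodTwo

open Fermat.Agent.TwoAdic WeierstrassCurve

/-- The part of a natural number that is a fifth power is controlled by the valuations. -/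
theorem pow_five_le_of_factorization {D E w : ℕ} (hD : D ≠ 0) (hE : E ≠ 0)
    (hle : ∀ p : ℕ, p.Prime → D.factorization p ≤ E.factorization p + 3) (hw : w ^ 5 ∣ D) :
    w ^ 5 ≤ E ^ 4 := by
  have hw0 : w ^ 5 ≠ 0 := ne_zero_of_dvd_ne_zero hD hw
  refine Nat.le_of_dvd (pow_pos (Nat.pos_of_ne_zero hE) 4) ?_
  rw [← Nat.factorization_le_iff_dvd hw0 (pow_ne_zero _ hE)]
  intro p
  have h1 := (Nat.factorization_le_iff_dvd hw0 hD).2 hw p
  rw [Nat.factorization_pow, Finsupp.smul_apply, smul_eq_mul] at h1 ⊢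
  rw [Nat.factorization_pow, Finsupp.smul_apply, smul_eq_mul]
  by_cases hp : p.Prime
  · have := hle p hp
    omega
  · simp [Nat.factorization_eq_zero_of_not_prime _ hp]

/-- Some prime other than `5` divides a number with small `5`-part. -/
theorem exists_prime_ne_five {D E : ℕ} (hD : D ≠ 0) (hE : E ≠ 0)
    (hle : ∀ p : ℕ, p.Prime → D.factorization p ≤ E.factorization p + 3) (hbig : 125 * E < D) :
    ∃ q : ℕ, q.Prime ∧ q ≠ 5 ∧ q ∣ D := by
  by_contra hno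
  push Not at hno
  refine absurd (Nat.le_of_dvd (by positivity) ?_) (not_le.2 hbig)
  rw [← Nat.factorization_le_iff_dvd hD (by positivity)]
  intro p
  rw [show (125 : ℕ) = 5 ^ 3 by norm_num, Nat.factorization_mul (by norm_num) hE,
    Nat.Prime.factorization_pow (by norm_num : Nat.Prime 5), Finsupp.add_apply]
  by_cases hp : p.Prime
  · rcases eq_or_ne p 5 with rfl | h5
    · rw [Finsupp.single_eq_same]
      have := hle 5 hp
      omega
    · rw [Nat.factorization_eq_zero_of_not_dvd (hno p hp h5)]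
      exact Nat.zero_le _
  · simp [Nat.factorization_eq_zero_of_not_prime _ hp]

theorem threeSwitch : ThreeSwitch := by
  classical
  intro W hΔ hW h3 h2D
  set a := W.c₄ with hadef
  set b := W.c₆ with hbdef
  set D := W.Δ with hDdef
  have hrel : a ^ 3 - b ^ 2 = 1728 * D := W.c_relation.symm
  have ha0 : a ≠ 0 := c₄_ne_zero_of_isSemistableModel W hΔ hW
  have hab : a ^ 3 ≠ b ^ 2 := fun h => hΔ (by
    have : (1728 : ℤ) * D = 0 := by rw [← hrel, h, sub_self]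
    simpa using this)
  obtain ⟨s₂, t₂, u, hpar, hu, htwo⟩ :=
    exists_goodTwo_class hrel h2D (goodTwo_dichotomy W hW h2D)
  set S : Finset ℕ := (6 * D).natAbs.primeFactors with hS
  have h6D : (6 * D).natAbs ≠ 0 := by simpa using hΔ
  have hmem : ∀ q : ℕ, q.Prime → (q ∈ S ↔ q = 2 ∨ q = 3 ∨ (q : ℤ) ∣ D) := fun q hq => by
    rw [hS, Nat.mem_primeFactors_of_ne_zero h6D, ← Int.natCast_dvd,
      (Nat.prime_iff_prime_int.1 hq).dvd_mul]
    refine ⟨fun h => ?_, fun h => ⟨hq, ?_⟩⟩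
    · rcases h.2 with h | h
      · have h6 : q ∣ 2 * 3 := by exact_mod_cast h
        rcases hq.dvd_mul.1 h6 with h | h
        · exact Or.inl ((Nat.prime_dvd_prime_iff_eq hq Nat.prime_two).1 h)
        · exact Or.inr (Or.inl ((Nat.prime_dvd_prime_iff_eq hq Nat.prime_three).1 h))
      · exact Or.inr (Or.inr h)
    · rcases h with rfl | rfl | h
      · exact Or.inl (by norm_num)
      · exact Or.inl (by norm_num)
      · exact Or.inr h
  set m : ℕ → ℤ := fun q => (q : ℤ) ^ (if q = 2 then 24 else 3) with hmdef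
  set cls : ℕ → ℤ × ℤ := fun q => if q = 2 then (s₂, t₂) else switchClassOdd a b D q
    with hclsdef
  have hcop : ∀ p ∈ S, ∀ q ∈ S, p ≠ q → IsCoprime (m p) (m q) := fun p hp q hq hne =>
    (Int.isCoprime_iff_gcd_eq_one.2 (by
      simpa [Int.gcd_natCast_natCast] using (Nat.coprime_primes (Nat.prime_of_mem_primeFactors hp)
        (Nat.prime_of_mem_primeFactors hq)).2 hne)).pow
  obtain ⟨a₀, ha₀⟩ := exists_forall_dvd_sub_of_coprime S m (fun q => (cls q).1) hcop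
  obtain ⟨b₀, hb₀⟩ := exists_forall_dvd_sub_of_coprime S m (fun q => (cls q).2) hcop
  set M : ℤ := ∏ q ∈ S, m q with hMdef
  have hM0 : M ≠ 0 := Finset.prod_ne_zero_iff.2 fun q hq =>
    pow_ne_zero _ (by exact_mod_cast (Nat.prime_of_mem_primeFactors hq).ne_zero)
  have hMS : ∀ q : ℕ, q.Prime → (q : ℤ) ∣ M → q ∈ S := fun q hq hd => by
    obtain ⟨p, hp, hpd⟩ := (Nat.prime_iff_prime_int.1 hq).exists_mem_finset_dvd hd
    have hqp : q ∣ p :=
      Int.natCast_dvd_natCast.1 ((Nat.prime_iff_prime_int.1 hq).dvd_of_dvd_pow hpd)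
    rwa [(Nat.prime_dvd_prime_iff_eq hq (Nat.prime_of_mem_primeFactors hp)).1 hqp]
  have hmS : ∀ q ∈ S, m q ∣ M := fun q hq => Finset.dvd_prod_of_mem m hq
  have hqm : ∀ q : ℕ, (q : ℤ) ∣ m q := fun q => dvd_pow_self _ (by split_ifs <;> norm_num)
  have hprim : ∀ q : ℕ, q.Prime → (q : ℤ) ∣ M → ¬ ((q : ℤ) ∣ a₀ ∧ (q : ℤ) ∣ b₀) := by
    intro q hq hd ⟨h1, h2⟩
    have hqS := hMS q hq hd
    have h1' : (q : ℤ) ∣ (cls q).1 := (dvd_sub_right h1).1 ((hqm q).trans (ha₀ q hqS))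
    have h2' : (q : ℤ) ∣ (cls q).2 := (dvd_sub_right h2).1 ((hqm q).trans (hb₀ q hqS))
    simp only [hclsdef] at h1' h2'
    split_ifs at h1' h2' with hq2
    · subst hq2
      exact hpar ⟨by exact_mod_cast h1', by exact_mod_cast h2'⟩
    · unfold switchClassOdd at h1' h2'
      split_ifs at h1' h2' with hev
      · exact (Nat.prime_iff_prime_int.1 hq).not_dvd_one h2'
      · exact (Nat.prime_iff_prime_int.1 hq).not_dvd_one h1'
  obtain ⟨α, β, hαβ, R, hR, hcone⟩ := exists_cone hrel hΔ ha0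
  set K4 : ℤ := |a| * R ^ 4 + 4 * |b| * R ^ 3 + 6 * a ^ 2 * R ^ 2 + 4 * |a * b| * R
    + |-3 * a ^ 3 + 4 * b ^ 2| with hK4
  have hK4pos : 0 ≤ K4 := by rw [hK4]; positivity
  set E : ℕ := D.natAbs with hEdef
  have hE0 : E ≠ 0 := Int.natAbs_ne_zero.2 hΔ
  set X : ℕ := 20 * (E ^ 4) ^ 2 + 125 * E + 64 * K4.natAbs ^ 3 * (E ^ 4) ^ 6 with hX
  obtain ⟨s, t, hsM, htM, hst, hBt, ht0, hsα, hsβ, hD0, hsq⟩ :=
    exists_coprime_quarticForm_sqfreeOutside (c₁ := 0) (c₂ := -6 * a) (c₃ := -8 * b)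
      (c₄ := -3 * a ^ 2) (S := S) one_ne_zero (squarefree_hessePoly ha0 hab) hM0 hprim hMS
      (fun q hq _ => ⟨1, 0, fun h => (Nat.prime_iff_prime_int.1 hq).not_dvd_one h.1, fun h => by
        rw [show quarticForm (1 : ℤ) 0 (-6 * a) (-8 * b) (-3 * a ^ 2) 1 0 = 1 by
          simp [quarticForm]] at h
        exact (Nat.prime_iff_prime_int.1 hq).not_dvd_one
          ((dvd_pow_self _ two_ne_zero).trans h)⟩)
      hαβ ((2 : ℤ) ^ 144 * X)
  simp only [← hesseD_eq_quarticForm] at hD0 hsq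
  obtain ⟨hs0, hsR, -, hsize⟩ := hcone s t ht0 hsα hsβ
  have hclass : ∀ q ∈ S, m q ∣ s - (cls q).1 ∧ m q ∣ t - (cls q).2 := fun q hq =>
    ⟨by simpa using ((hmS q hq).trans hsM).add (ha₀ q hq),
      by simpa using ((hmS q hq).trans htM).add (hb₀ q hq)⟩
  have hclass2 := hclass 2 ((hmem 2 Nat.prime_two).2 (Or.inl rfl))
  simp only [hmdef, hclsdef, ↓reduceIte, Nat.cast_ofNat] at hclass2
  obtain ⟨C4, C6, D', h4, h6, hΔ', hend⟩ : ∃ C4 C6 D' : ℤ,
      hesseC4 a b s t = u ^ 4 * C4 ∧ hesseC6 a b s t = u ^ 6 * C6 ∧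
        D * hesseD a b s t ^ 3 = u ^ 12 * D' ∧ ((Odd C4 ∧ C6 % 4 = 3 ∧ (2 : ℤ) ∣ D') ∨
          ((16 : ℤ) ∣ C4 ∧ ¬ (32 : ℤ) ∣ C4 ∧ C6 % 32 = 8 ∧ ¬ (2 : ℤ) ∣ D')) := by
    rcases htwo s t hclass2.1 hclass2.2 with ⟨C4, C6, D', h1, h2, h3, h⟩ | ⟨C4, C6, D', h1, h2, h3, h⟩
    · exact ⟨C4, C6, D', h1, h2, h3, Or.inr h⟩
    · exact ⟨C4, C6, D', h1, h2, h3, Or.inl h⟩
  have hu0 : u ≠ 0 := by rcases hu with rfl | rfl <;> norm_num
  have hqu : ∀ q : ℕ, q.Prime → q ≠ 2 → ¬ (q : ℤ) ∣ u := fun q hq h2 hd => by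
    rcases hu with rfl | rfl
    · exact (Nat.prime_iff_prime_int.1 hq).not_dvd_one hd
    · exact prime_int_not_dvd hq Nat.prime_two h2
        ((Nat.prime_iff_prime_int.1 hq).dvd_of_dvd_pow (n := 2) (by norm_num; exact hd))
  have hu3 : IsCoprime (3 : ℤ) u := by
    rcases hu with rfl | rfl
    · exact isCoprime_one_right
    · exact ⟨-1, 1, by norm_num⟩
  have hD'0 : D' ≠ 0 := fun h => by
    rw [h, mul_zero] at hΔ'
    exact mul_ne_zero hΔ (pow_ne_zero 3 hD0) hΔ'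
  have hrel' : C4 ^ 3 - C6 ^ 2 = 1728 * D' := by
    apply mul_left_cancel₀ (pow_ne_zero 12 hu0)
    have h := hesseC4_cube_sub_hesseC6_sq a b s t
    rw [h4, h6, hrel] at h
    linear_combination h + 1728 * hΔ'
  have hthree : ¬ (3 : ℤ) ∣ D → ¬ (3 : ℤ) ∣ D' ∧ (¬ (3 : ℤ) ∣ C4 ∨ 27 ∣ C6) ∧
      ((3 : ℤ) ∣ C4 ∨ D' % 3 = 2) := by
    intro h3D
    have h := hclass 3 ((hmem 3 Nat.prime_three).2 (Or.inr (Or.inl rfl)))
    simp only [hmdef, hclsdef, show (3 : ℕ) ≠ 2 by norm_num, ↓reduceIte] at h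
    exact switch_three_good h3D hu3 h4 h6 hΔ' (by simpa using h.1) (by simpa using h.2)
  have hloc : ∀ q : ℕ, q.Prime → q ≠ 2 → padicValInt q D' ≤ padicValInt q D + 3 ∧
      ((q : ℤ) ∣ D' → ¬ (q : ℤ) ∣ C4) ∧ ((q : ℤ) ∣ D → ¬ (q : ℤ) ∣ C4) := fun q hq h2 =>
    switch_prime hΔ hW hq h2 hst (hqu q hq h2) h4 hΔ' hD0 hD'0 hu0
      (fun h => by simpa [hmdef, hclsdef, h2] using hclass q ((hmem q hq).2 (Or.inr (Or.inr h))))
      (fun h3q hD => (hthree (by subst h3q; exact_mod_cast hD)).1)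
      (fun h => hsq q hq fun hS => h (((hmem q hq).1 hS).resolve_left h2))
  have hkraus : ¬ (3 : ℤ) ∣ C4 ∨ 27 ∣ C6 := by
    by_cases h3D : (3 : ℤ) ∣ D
    · exact Or.inl ((hloc 3 Nat.prime_three (by norm_num)).2.2 h3D)
    · exact (hthree h3D).2.1
  obtain ⟨V, hV4, hV6, hVΔ⟩ : ∃ V : WeierstrassCurve ℤ, V.c₄ = C4 ∧ V.c₆ = C6 ∧ V.Δ = D' := by
    rcases hend with ⟨h1, h2, -⟩ | ⟨h1, -, h2, -⟩
    · exact exists_model C4 C6 D' hrel' h1 h2 hkraus
    · exact exists_model_supersingular C4 C6 D' hrel' h1 h2 hkraus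
  have hV0 : V.Δ ≠ 0 := by rwa [hVΔ]
  have hss : V.IsSemistableModel := by
    intro q hq hd
    rw [hVΔ] at hd
    rw [hV4]
    by_cases h2 : q = 2
    · subst h2
      rcases hend with ⟨h1, -, -⟩ | ⟨-, -, -, h1⟩
      · exact fun h => (Int.not_even_iff_odd.2 h1) (even_iff_two_dvd.2 (by exact_mod_cast h))
      · exact absurd (by exact_mod_cast hd) h1
    · exact (hloc q hq h2).2.1 hd
  have hc := c₄_ne_zero_of_isSemistableModel W hΔ hW
  have hc' := c₄_ne_zero_of_isSemistableModel V hV0 hss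
  rw [← hV4] at h4
  rw [← hV6] at h6
  refine ⟨V, hV0, hss, modRepIsIrreducible_three_of_member W V hΔ hV0 hc hc' hu0 h4 h6 h3, ?_,
    fun hg hd => (hthree hg).1 (by rw [← hVΔ]; exact hd),
    fun ℓ hℓ hℓ3 hg hg' =>
      dvd_apOfModel_sub_of_member W V hΔ hV0 hc hc' hu0 h4 h6 hℓ hℓ3 hg hg'⟩
  rcases hend with ⟨-, -, h1⟩ | ⟨h1, h1', h2, h2'⟩
  · exact Or.inl (hVΔ ▸ h1)
  refine Or.inr ⟨isSupersingularTwo_of_invariants hV4 hV6 h1 h1' h2, ?_⟩
  -- valuations and sizes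
  have hfac : ∀ p : ℕ, p.Prime → D'.natAbs.factorization p ≤ E.factorization p + 3 := by
    intro p hp
    rw [hEdef, Nat.factorization_def _ hp, Nat.factorization_def _ hp]
    rcases eq_or_ne p 2 with rfl | hp2
    · rw [padicValNat.eq_zero_of_not_dvd (fun h => h2' (Int.natCast_dvd.2 h))]
      exact Nat.zero_le _
    · exact (hloc p hp hp2).1
  have hu12 : u ^ 12 ≤ 2 ^ 24 := by rcases hu with rfl | rfl <;> norm_num
  have hu12' : 0 ≤ u ^ 12 := by rcases hu with rfl | rfl <;> norm_num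
  have hbigD : (t.natAbs ^ 4) ^ 3 ≤ 2 ^ 24 * D'.natAbs := by
    have h : (t ^ 4) ^ 3 ≤ 2 ^ 24 * |D'| :=
      calc (t ^ 4) ^ 3 = 1 * (t ^ 4) ^ 3 := (one_mul _).symm
        _ ≤ |D| * |hesseD a b s t| ^ 3 := by
          gcongr
          exact Int.one_le_abs hΔ
        _ = |u ^ 12 * D'| := by rw [← hΔ', abs_mul, abs_pow]
        _ = u ^ 12 * |D'| := by rw [abs_mul, abs_of_nonneg hu12']
        _ ≤ 2 ^ 24 * |D'| := by gcongr
    zify
    rwa [abs_of_pos ht0]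
  have hC4le : V.c₄.natAbs ≤ K4.natAbs * t.natAbs ^ 4 := by
    have h : |V.c₄| ≤ K4 * t ^ 4 := by
      refine le_trans ?_ (abs_hesseC4_le (a := a) (b := b) ht0.le hsR)
      rw [h4, abs_mul]
      refine le_mul_of_one_le_left (abs_nonneg _) ?_
      exact Int.one_le_abs (pow_ne_zero 4 hu0)
    zify
    rwa [abs_of_pos ht0, abs_of_nonneg hK4pos]
  have hB : 2 ^ 144 * X < t.natAbs := by
    zify
    rwa [abs_of_pos ht0]
  have ht1 : 1 ≤ t.natAbs := Nat.one_le_iff_ne_zero.2 (Int.natAbs_ne_zero.2 ht0.ne')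
  have hsmall : ∀ Y, Y ≤ X → Y < D'.natAbs := fun Y hY => by
    refine lt_of_mul_lt_mul_left (a := 2 ^ 24) ?_ (Nat.zero_le _)
    calc 2 ^ 24 * Y ≤ 2 ^ 144 * X := Nat.mul_le_mul (Nat.pow_le_pow_right (by norm_num)
          (by norm_num)) hY
      _ < t.natAbs := hB
      _ ≤ (t.natAbs ^ 4) ^ 3 := by rw [← pow_mul]; exact Nat.le_self_pow (by norm_num) _
      _ ≤ _ := hbigD
  refine ⟨modRepIsIrreducible_five_of_large V hV0 hss (E ^ 4) ?_ ?_ ?_, ?_, ?_⟩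
  · intro w hw
    rw [hVΔ] at hw
    exact pow_five_le_of_factorization (Int.natAbs_ne_zero.2 hD'0) hE0 hfac hw
  · rw [hVΔ]
    exact hsmall _ (by omega)
  · rw [hVΔ]
    refine lt_of_mul_lt_mul_left (a := 2 ^ 144) ?_ (Nat.zero_le _)
    calc 2 ^ 144 * (64 * V.c₄.natAbs ^ 3 * (E ^ 4) ^ 6)
        ≤ 2 ^ 144 * (64 * (K4.natAbs * t.natAbs ^ 4) ^ 3 * (E ^ 4) ^ 6) := by gcongr
      _ = 2 ^ 144 * (64 * K4.natAbs ^ 3 * (E ^ 4) ^ 6) * (t.natAbs ^ 4) ^ 3 := by ring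
      _ < t.natAbs * (t.natAbs ^ 4) ^ 3 := by
        refine Nat.mul_lt_mul_of_pos_right (lt_of_le_of_lt ?_ hB) (by positivity)
        exact Nat.mul_le_mul_left _ (by omega)
      _ ≤ ((t.natAbs ^ 4) ^ 3) ^ 6 := by
        calc t.natAbs * (t.natAbs ^ 4) ^ 3 ≤ (t.natAbs ^ 4) ^ 3 * (t.natAbs ^ 4) ^ 3 := by
              gcongr
              rw [← pow_mul]; exact Nat.le_self_pow (by norm_num) _
          _ = ((t.natAbs ^ 4) ^ 3) ^ 2 := (sq _).symm
          _ ≤ _ := Nat.pow_le_pow_right (by positivity) (by norm_num)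
      _ ≤ (2 ^ 24 * D'.natAbs) ^ 6 := by gcongr
      _ = _ := by rw [mul_pow, ← pow_mul]
  · obtain ⟨q, hq, h5, hqd⟩ := exists_prime_ne_five (Int.natAbs_ne_zero.2 hD'0) hE0 hfac
      (hsmall _ (by omega))
    exact ⟨q, hq, h5, by rw [hVΔ]; exact Int.natCast_dvd.2 hqd⟩
  · intro hg
    rw [hV4, hVΔ]
    refine (hthree fun hd => hg ?_).2.2
    show ((3 : ℕ) : ℤ) ∣ V.Δ
    rw [hVΔ]
    -- a prime of `Δ` stays bad
    by_contra hn
    have h1 : (3 : ℤ) ∣ u ^ 12 * D' := hΔ' ▸ hd.mul_right _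
    exact hn (by exact_mod_cast (Int.prime_three.dvd_or_dvd h1).resolve_left fun h =>
      Int.prime_three.coprime_iff_not_dvd.1 hu3 (Int.prime_three.dvd_of_dvd_pow h))

end Fermat.Agent.GoodTwo
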