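import Fermat.Agent.GoodTwo.Main
import Fermat.Agent.GoodTwo.S50Wiring
import Fermat.Agent.GoodTwo.LiftFive
import Fermat.Agent.GoodTwo.ThreeSwitch
import Fermat.Agent.GoodTwo.FiveSwitch
import Fermat.Agent.Endgame.Chain

/-!
# Residual modularity at `3` with the switches and the lifting discharged
-/

set_option autoImplicit false

namespace Fermat.Agent.GoodTwo

/-- Residual modularity at `3` of every semistable curve, from the removal of `2` from the level. -/
theorem semistableModularAtThree_of_removal (hrem : LevelTwoRemoval) : SemistableModularAtThree :=
  semistableModularAtThree threeSwitch fiveSwitch hrem Endgame.squarefreeModularAtThree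
    Endgame.eigenformResidualRep exactConductorLevel_three' exactConductorLevel_five

end Fermat.Agent.GoodTwo
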