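import Fermat.Agent.BadPrime.Raise
import Fermat.Prelude.Def_FLTPrelim_ModularRep

/-!
# Residual modularity at a multiple of the level
-/

set_option autoImplicit false

open WeierstrassCurve CongruenceSubgroup ModularFormClass

namespace Fermat.Agent.GoodTwo

variable {W : WeierstrassCurve ℤ} {p M : ℕ}

/-- Residual modularity passes to every nonzero multiple of the level. -/
theorem isResiduallyModularOfLevel_of_dvd {R : ℕ} (hR : 0 < R) (hMR : M ∣ R)
    (h : W.IsResiduallyModularOfLevel p M) : W.IsResiduallyModularOfLevel p R := by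
  obtain ⟨f, 𝔪, hf, hmax, hp, hcong⟩ := h
  have : NeZero R := ⟨hR.ne'⟩
  have : NeZero M := ⟨fun hM => hR.ne' (by simpa [hM] using hMR)⟩
  obtain ⟨g, hg, hgf⟩ := BadPrime.exists_eigenform_level_of_dvd hMR hf
  refine ⟨g, 𝔪, hg, hmax, hp, fun ℓ hℓ hgood hℓR hℓp => ?_⟩
  obtain ⟨a, ha, ham⟩ := hcong ℓ hℓ hgood (fun h => hℓR (h.trans hMR)) hℓp
  exact ⟨a, ha.trans (hgf ℓ hℓ hℓR).symm, ham⟩

/-- Residual modularity passes from level `M` to level `M * q`, keeping the level squarefree. -/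
theorem isResiduallyModularOfLevel_mul_prime {q : ℕ} (hq : q.Prime) (hM : 0 < M) (hsq : Squarefree M)
    (hqM : ¬ q ∣ M) (h : W.IsResiduallyModularOfLevel p M) :
    0 < M * q ∧ Squarefree (M * q) ∧ W.IsResiduallyModularOfLevel p (M * q) :=
  have hpos : 0 < M * q := Nat.mul_pos hM hq.pos
  ⟨hpos, (Nat.squarefree_mul (hq.coprime_iff_not_dvd.mpr hqM).symm).mpr ⟨hsq, hq.squarefree⟩,
    isResiduallyModularOfLevel_of_dvd hpos (dvd_mul_right M q) h⟩

end Fermat.Agent.GoodTwo
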