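import Fermat.Agent.EC.Frob.Hasse

/-!
# The trace at `3` of a supersingular reduction

If `W` is good at `3` and `3 ∣ c₄`, then `a₃ ∈ {0, 3, -3}`; if `Δ ≡ -1 (mod 3)` or `3 ∣ c₄`,
then `a₃ ≠ ±1`, that is `a₃² ≢ (3 + 1)² (mod 5)`.
-/

set_option autoImplicit false

namespace Fermat.Agent.GoodTwo

open WeierstrassCurve

namespace TraceThree

/-- The number of affine points of a curve over `𝔽₃` with `b₂ = 0`, `Δ ≠ 0` is divisible by `3`. -/
theorem count_dvd : ∀ a₁ a₃ a₄ a₆ : ZMod 3,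
    (⟨a₁, 2 * a₁ ^ 2, a₃, a₄, a₆⟩ : WeierstrassCurve (ZMod 3)).Δ ≠ 0 →
    ((Finset.univ : Finset (ZMod 3 × ZMod 3)).filter fun v =>
      v.2 ^ 2 + a₁ * v.1 * v.2 + a₃ * v.2 =
        v.1 ^ 3 + 2 * a₁ ^ 2 * v.1 ^ 2 + a₄ * v.1 + a₆).card % 3 = 0 := by
  decide +kernel

theorem card_dvd (W : WeierstrassCurve (ZMod 3)) [W.IsElliptic] (hb : W.b₂ = 0) :
    ∃ k : ℕ, W.card = 3 * k + 1 := by
  have h2 : W.a₂ = 2 * W.a₁ ^ 2 := by
    have h3 : (3 : ZMod 3) = 0 := rfl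
    rw [WeierstrassCurve.b₂] at hb
    linear_combination hb + (-W.a₁ ^ 2 - W.a₂) * h3
  have hΔ : (⟨W.a₁, 2 * W.a₁ ^ 2, W.a₃, W.a₄, W.a₆⟩ : WeierstrassCurve (ZMod 3)).Δ ≠ 0 := by
    rw [← h2]
    exact W.isUnit_Δ.ne_zero
  have hcount := count_dvd W.a₁ W.a₃ W.a₄ W.a₆ hΔ
  have e : W.toAffine.Point ≃
      Option {v : ZMod 3 × ZMod 3 // v.2 ^ 2 + W.a₁ * v.1 * v.2 + W.a₃ * v.2 =
        v.1 ^ 3 + 2 * W.a₁ ^ 2 * v.1 ^ 2 + W.a₄ * v.1 + W.a₆} :=
    { toFun := fun P => match P with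
        | .zero => none
        | .some x y h => some ⟨(x, y), by
            have h' := (Affine.equation_iff x y).mp h.left
            simpa [h2] using h'⟩
      invFun := fun o => match o with
        | none => .zero
        | some ⟨(x, y), h⟩ => .some x y (Affine.equation_iff_nonsingular.mp
            ((Affine.equation_iff x y).mpr (by simpa [h2] using h)))
      left_inv := fun P => by cases P <;> rfl
      right_inv := fun o => by rcases o with _ | ⟨⟨x, y⟩, h⟩ <;> rfl }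
  rw [WeierstrassCurve.card, Nat.card_congr e, Nat.card_eq_fintype_card, Fintype.card_option,
    Fintype.card_subtype]
  exact ⟨_, congrArg (· + 1) (Nat.eq_mul_of_div_eq_right (Nat.dvd_of_mod_eq_zero hcount) rfl)⟩

end TraceThree

/-- `W` good at `3` with `3 ∣ c₄` has `3 ∣ a₃`. -/
theorem three_dvd_apOfModel_three (W : WeierstrassCurve ℤ) (hgood : W.IsGoodPrimeFor 3)
    (hc4 : (3 : ℤ) ∣ W.c₄) : (3 : ℤ) ∣ W.apOfModel 3 := by
  have : Fact (Nat.Prime 3) := ⟨Nat.prime_three⟩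
  have := EC.isElliptic_reductionMod W (l := 3) hgood
  have hb : (W.reductionMod 3).b₂ = 0 := by
    have h : ((W.c₄ : ℤ) : ZMod 3) = 0 := (ZMod.intCast_zmod_eq_zero_iff_dvd _ 3).mpr hc4
    rw [WeierstrassCurve.c₄, Int.cast_sub, Int.cast_mul, Int.cast_pow,
      show ((24 : ℤ) : ZMod 3) = 0 from rfl, zero_mul, sub_zero] at h
    rw [reductionMod, map_b₂, eq_intCast]
    exact pow_eq_zero_iff two_ne_zero |>.mp h
  obtain ⟨k, hk⟩ := TraceThree.card_dvd _ hb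
  rw [apOfModel, traceOfFrobenius, hk, Nat.card_zmod]
  exact ⟨1 - k, by push_cast; ring⟩

namespace TraceThree

/-- A curve over `𝔽₃` with discriminant `-1` has neither `2` nor `4` affine points. -/
theorem count_ne : ∀ a₁ a₂ a₃ a₄ a₆ : ZMod 3,
    (⟨a₁, a₂, a₃, a₄, a₆⟩ : WeierstrassCurve (ZMod 3)).Δ = 2 →
    ((Finset.univ : Finset (ZMod 3 × ZMod 3)).filter fun v =>
      v.2 ^ 2 + a₁ * v.1 * v.2 + a₃ * v.2 = v.1 ^ 3 + a₂ * v.1 ^ 2 + a₄ * v.1 + a₆).card ∉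
        ({2, 4} : Finset ℕ) := by
  decide +kernel

theorem card_ne (W : WeierstrassCurve (ZMod 3)) [W.IsElliptic] (hΔ : W.Δ = 2) :
    W.card ≠ 3 ∧ W.card ≠ 5 := by
  have hcount := count_ne W.a₁ W.a₂ W.a₃ W.a₄ W.a₆ hΔ
  have e : W.toAffine.Point ≃
      Option {v : ZMod 3 × ZMod 3 // v.2 ^ 2 + W.a₁ * v.1 * v.2 + W.a₃ * v.2 =
        v.1 ^ 3 + W.a₂ * v.1 ^ 2 + W.a₄ * v.1 + W.a₆} :=
    { toFun := fun P => match P with
        | .zero => none
        | .some x y h => some ⟨(x, y), (Affine.equation_iff x y).mp h.left⟩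
      invFun := fun o => match o with
        | none => .zero
        | some ⟨(x, y), h⟩ => .some x y
            (Affine.equation_iff_nonsingular.mp ((Affine.equation_iff x y).mpr h))
      left_inv := fun P => by cases P <;> rfl
      right_inv := fun o => by rcases o with _ | ⟨⟨x, y⟩, h⟩ <;> rfl }
  rw [WeierstrassCurve.card, Nat.card_congr e, Nat.card_eq_fintype_card, Fintype.card_option,
    Fintype.card_subtype]
  simp only [Finset.mem_insert, Finset.mem_singleton, not_or] at hcount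
  exact ⟨fun h => hcount.1 (by omega), fun h => hcount.2 (by omega)⟩

end TraceThree

/-- The trace at `3` of a supersingular reduction, with its residue modulo `5`. -/
theorem apOfModel_three_of_three_dvd_c₄ (W : WeierstrassCurve ℤ) (hgood : W.IsGoodPrimeFor 3)
    (hc4 : (3 : ℤ) ∣ W.c₄) :
    (3 : ℤ) ∣ W.apOfModel 3 ∧
      ((W.apOfModel 3 : ℤ) : ZMod 5) ^ 2 ≠ ((3 : ZMod 5) + 1) ^ 2 := by
  have h3 := three_dvd_apOfModel_three W hgood hc4
  refine ⟨h3, ?_⟩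
  have hH : W.apOfModel 3 ^ 2 ≤ 4 * ((3 : ℕ) : ℤ) := EC.apOfModel_sq_le W Nat.prime_three hgood
  obtain ⟨j, hj⟩ := h3
  rw [hj] at hH ⊢
  push_cast at hH
  have h1 : -1 ≤ j := by nlinarith
  have h2 : j ≤ 1 := by nlinarith
  interval_cases j <;> decide

/-- `a₃ ≠ ±1` when `3 ∣ c₄` or `Δ ≡ -1 (mod 3)`: no level raising at `3` modulo `5`. -/
theorem apOfModel_three_sq_ne (W : WeierstrassCurve ℤ) (hgood : W.IsGoodPrimeFor 3)
    (h : (3 : ℤ) ∣ W.c₄ ∨ W.Δ % 3 = 2) :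
    ((W.apOfModel 3 : ℤ) : ZMod 5) ^ 2 ≠ ((3 : ZMod 5) + 1) ^ 2 := by
  rcases h with h | h
  · exact (apOfModel_three_of_three_dvd_c₄ W hgood h).2
  have : Fact (Nat.Prime 3) := ⟨Nat.prime_three⟩
  have := EC.isElliptic_reductionMod W (l := 3) hgood
  have hΔ : (W.reductionMod 3).Δ = 2 := by
    rw [reductionMod, map_Δ, eq_intCast, ← ZMod.intCast_mod W.Δ 3]
    show (((W.Δ % 3 : ℤ)) : ZMod 3) = 2
    rw [h]
    rfl
  obtain ⟨hne3, hne5⟩ := TraceThree.card_ne _ hΔ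
  have hH : W.apOfModel 3 ^ 2 ≤ 4 * ((3 : ℕ) : ℤ) := EC.apOfModel_sq_le W Nat.prime_three hgood
  have hap : W.apOfModel 3 = 4 - ((W.reductionMod 3).card : ℤ) := by
    rw [apOfModel, traceOfFrobenius, Nat.card_zmod]
    norm_num
  push_cast at hH
  have h1 : -3 ≤ W.apOfModel 3 := by nlinarith
  have h2 : W.apOfModel 3 ≤ 3 := by nlinarith
  have h3 : W.apOfModel 3 ≠ 1 := by omega
  have h4 : W.apOfModel 3 ≠ -1 := by omega
  generalize W.apOfModel 3 = a at *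
  interval_cases a <;> first | omega | decide

end Fermat.Agent.GoodTwo
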