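import Fermat.Agent.GoodTwo.Contracts
import Fermat.Agent.GoodTwo.Stabilise
import Fermat.Agent.GoodTwo.TraceThree
import Fermat.Agent.BadPrime.Mazur.Local.Main
import Fermat.Agent.BadPrime.Reps
import Fermat.Agent.EC.Red.Qbar
import Fermat.Agent.EC.Frob.Trace
import Fermat.Agent.Lifting.Minimal.Newform
import Fermat.Agent.Lifting.Squarefree.MazurGeneral
import Fermat.Agent.S29

/-!
# Removal of `2` from a residual level at `5`

With `3` put into the level Mazur's principle at `2` applies; a minimal level below the result is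
prime to `3` when `V` is good there with `a₃ ≢ ±4 (mod 5)`.
-/

set_option autoImplicit false

noncomputable section

open scoped WeierstrassCurve.Affine
open WeierstrassCurve Polynomial

namespace Fermat.Agent.GoodTwo

local notation "ℚ̄" => AlgebraicClosure ℚ

variable {V : WeierstrassCurve ℤ} [Fact (Nat.Prime 5)]

/-- Mazur's principle at `2` modulo `5`, at a level divisible by `3`. -/
theorem removeTwo (hΔ : V.Δ ≠ 0) (hgood : ¬ (2 : ℤ) ∣ V.Δ) (hirr : V.ModRepIsIrreducible 5)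
    {M : ℕ} (hM : 0 < M) (h2M : ¬ 2 ∣ M) (h3M : 3 ∣ M)
    (hmod : V.IsResiduallyModularOfLevel 5 (M * 2)) : V.IsResiduallyModularOfLevel 5 M := by
  have : NeZero M := ⟨hM.ne'⟩
  have : NeZero (M * 2) := ⟨by positivity⟩
  have : Fact (Nat.Prime 2) := ⟨Nat.prime_two⟩
  have := EC.isElliptic_map_rat hΔ
  exact BadPrime.Mazur.isResiduallyModularOfLevel_of_inputs
    (fun N _ => EichlerShimura.kummerIso_modular N)
    (fun N _ p _ => EichlerShimura.frobeniusOnTorsion_modular N p) (by norm_num) hΔ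
    (EC.natCard_torsion_rat _ (by norm_num))
    (EC.galoisRepModuleEnd_factorsThroughFiniteLevel _ (by norm_num))
    hirr Nat.prime_two (by norm_num)
    (BadPrime.Mazur.Local.localInputs Nat.prime_five le_rfl (by norm_num)
      ⟨fun _ => h3M, fun h => absurd h (by norm_num)⟩ h2M)
    (fun h => absurd ((ZMod.natCast_eq_natCast_iff' 2 1 5).1 (by simpa using h)) (by norm_num))
    (fun A hA σ hσ => LinearMap.ext fun x =>
      EC.galoisRepUnramifiedAt_of_isGoodPrimeFor V Nat.prime_two (by exact_mod_cast hgood)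
        (by norm_num) A hA σ hσ x)
    hmod

/-- `3` divides no minimal level when `V` is good there with `a₃ ≢ ±4 (mod 5)`. -/
theorem not_three_dvd_of_minimal (hΔ : V.Δ ≠ 0) (hirr : V.ModRepIsIrreducible 5)
    (hgood : V.IsGoodPrimeFor 3) (h3 : (3 : ℤ) ∣ V.c₄ ∨ V.Δ % 3 = 2) {M : ℕ}
    (hM : Lifting.Minimal.IsMinimalResidualLevel V 5 M) : ¬ 3 ∣ M := by
  intro h3M
  obtain ⟨A, σ, hA, hσ⟩ := Galois.exists_valuationSubring_isFrobeniusAt Nat.prime_three
  obtain ⟨ε, hε, hch⟩ := hM.frobenius_charpoly hΔ (fun hg _ hp _ _ _ φ => S29.result hg hp φ)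
    BadPrime.newformMultRep_modular (by norm_num) hirr Nat.prime_three (by norm_num) h3M A hA σ hσ
  have hch' : LinearMap.charpoly ((Lifting.Residual.torsRep V 5 hΔ).ρ σ) =
      X ^ 2 - C (V.apOfModel 3 : ZMod 5) * X + C ((3 : ℕ) : ZMod 5) :=
    EC.charpoly_residualGaloisRepOf V Nat.prime_three hA hgood hσ (by norm_num) _ _
  have h1 := congrArg (fun f => Polynomial.coeff f 1) (hch.symm.trans hch')
  simp [Polynomial.coeff_X_pow, Polynomial.coeff_C] at h1
  refine apOfModel_three_sq_ne V hgood h3 ?_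
  rw [← h1, mul_pow, pow_two ε, hε, one_mul]

omit [Fact (Nat.Prime 5)] in
/-- Removal of `2` (and of a spurious `3`) from a squarefree residual level at `5`. -/
theorem levelTwoRemoval : LevelTwoRemoval := by
  intro V hΔ _ hgood hirr h3 N hN hsq hres h5
  have : Fact (Nat.Prime 5) := ⟨Nat.prime_five⟩
  -- `3` into the level
  obtain ⟨N₁, hN₁, hsq₁, hres₁, h51, h31⟩ : ∃ N₁ : ℕ, 0 < N₁ ∧ Squarefree N₁ ∧
      V.IsResiduallyModularOfLevel 5 N₁ ∧ (V.IsGoodPrimeFor 5 → ¬ 5 ∣ N₁) ∧ 3 ∣ N₁ := by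
    by_cases h : 3 ∣ N
    · exact ⟨N, hN, hsq, hres, h5, h⟩
    · obtain ⟨a, b, c⟩ := isResiduallyModularOfLevel_mul_prime Nat.prime_three hN hsq h hres
      exact ⟨N * 3, a, b, c,
        fun hg hd => (Nat.prime_five.dvd_mul.1 hd).elim (h5 hg) (by norm_num), dvd_mul_left 3 N⟩
  -- `2` out of it
  obtain ⟨N₂, hN₂, hsq₂, hres₂, h52, h22⟩ : ∃ N₂ : ℕ, 0 < N₂ ∧ Squarefree N₂ ∧
      V.IsResiduallyModularOfLevel 5 N₂ ∧ (V.IsGoodPrimeFor 5 → ¬ 5 ∣ N₂) ∧ ¬ 2 ∣ N₂ := by
    by_cases h : 2 ∣ N₁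
    · obtain ⟨M, rfl⟩ := h
      have h2M : ¬ 2 ∣ M := fun hd =>
        Nat.prime_two.not_isUnit (hsq₁ 2 (mul_dvd_mul_left 2 hd))
      have hM : 0 < M := Nat.pos_of_mul_pos_left hN₁
      refine ⟨M, hM, hsq₁.squarefree_of_dvd (dvd_mul_left M 2), ?_,
        fun hg hd => h51 hg (hd.mul_left 2), h2M⟩
      exact removeTwo hΔ hgood hirr hM h2M
        ((Nat.prime_three.dvd_mul.1 h31).resolve_left (by norm_num)) (mul_comm 2 M ▸ hres₁)
    · exact ⟨N₁, hN₁, hsq₁, hres₁, h51, h⟩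
  -- a minimal level below
  have h55 : 5 ∣ N₂ → (5 : ℤ) ∣ V.Δ := fun hd => by_contra fun hn => h52 hn hd
  obtain ⟨M, hMN, hM⟩ := Lifting.Minimal.exists_minimalResidualLevel hN₂ hsq₂ h55 hres₂
  refine ⟨M, hM.pos, hM.squarefree, hM.residual, fun hg hd => hg (hM.mult_of_dvd hd),
    fun q hq hqM hqg hq5 => ?_⟩
  by_contra hlt
  have := hq.two_le
  interval_cases q
  · exact h22 (hqM.trans hMN)
  · exact not_three_dvd_of_minimal hΔ hirr hqg (h3 hqg) hM hqM
  · exact absurd hq (by norm_num)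

end Fermat.Agent.GoodTwo

end
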