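import Fermat.Agent.GoodTwo.Contracts
import Fermat.Agent.Endgame.Final
import Fermat.Agent.RT.ResidualExtend
import Fermat.Agent.RT.TorsionFrobenius

/-!
# Residual modularity at `3` of every semistable curve

From the two switches, the removal of `2` from the level, the case of curves multiplicative at `2`
and lifting at `3` and at `5`.
-/

set_option autoImplicit false

open WeierstrassCurve

namespace Fermat.Agent.GoodTwo

/-- Lifting at `3` of a curve liftable there. -/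
def LiftAtThree : Prop :=
  ∀ {U : WeierstrassCurve ℤ}, U.Δ ≠ 0 → U.IsSemistableModel → Lifting.IsLiftableAt U 3 →
    U.ModRepIsIrreducible 3 → Mlc1IsModularModelOfExactConductorLevel U

/-- Lifting at `5` of a curve with a bad prime other than `5`. -/
def LiftAtFive : Prop :=
  ∀ {V : WeierstrassCurve ℤ}, V.Δ ≠ 0 → V.IsSemistableModel → V.ModRepIsIrreducible 5 →
    (∃ q : ℕ, q.Prime ∧ q ≠ 5 ∧ (q : ℤ) ∣ V.Δ) →
    ∀ {M : ℕ}, 0 < M → Squarefree M → V.IsResiduallyModularOfLevel 5 M →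
      (V.IsGoodPrimeFor 5 → ¬ 5 ∣ M) →
      (∀ q : ℕ, q.Prime → q ∣ M → V.IsGoodPrimeFor q → q ≠ 5 → 5 ≤ q) →
      Mlc1IsModularModelOfExactConductorLevel V

/-- A residual level of a congruent curve is a residual level. -/
theorem isResiduallyModularOfLevel_of_congr (hS29 : RT.EigenformResidualRep) {p : ℕ} (hp : p.Prime)
    {W V : WeierstrassCurve ℤ} (hWΔ : W.Δ ≠ 0) (hVΔ : V.Δ ≠ 0) {M : ℕ} (hM : 0 < M)
    (hres : V.IsResiduallyModularOfLevel p M)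
    (hcong : ∀ ℓ : ℕ, ℓ.Prime → ℓ ≠ p → W.IsGoodPrimeFor ℓ → V.IsGoodPrimeFor ℓ →
      (p : ℤ) ∣ (V.apOfModel ℓ - W.apOfModel ℓ)) :
    W.IsResiduallyModularOfLevel p M := by
  classical
  obtain ⟨f, 𝔪, hf, hmax, hpm, hc⟩ := hres
  refine RT.isResiduallyModularOfLevel_of_cofinite hS29 RT.torsionFrobeniusCharpoly hWΔ hp hM hf
    hmax hpm (insert p (M.primeFactors ∪ W.Δ.natAbs.primeFactors ∪ V.Δ.natAbs.primeFactors))
    fun ℓ hℓ hℓS => ?_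
  simp only [Finset.mem_insert, Finset.mem_union, not_or] at hℓS
  obtain ⟨hℓp, ⟨hℓM, hℓW⟩, hℓV⟩ := hℓS
  have hWℓ : W.IsGoodPrimeFor ℓ := fun hd =>
    hℓW (Nat.mem_primeFactors.2 ⟨hℓ, Int.natCast_dvd.1 hd, Int.natAbs_ne_zero.2 hWΔ⟩)
  have hVℓ : V.IsGoodPrimeFor ℓ := fun hd =>
    hℓV (Nat.mem_primeFactors.2 ⟨hℓ, Int.natCast_dvd.1 hd, Int.natAbs_ne_zero.2 hVΔ⟩)
  obtain ⟨a, ha, ham⟩ :=
    hc ℓ hℓ hVℓ (fun hd => hℓM (Nat.mem_primeFactors.2 ⟨hℓ, hd, hM.ne'⟩)) hℓp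
  refine ⟨a, ha, ?_⟩
  obtain ⟨k, hk⟩ := hcong ℓ hℓ hℓp hWℓ hVℓ
  have hk' : ((V.apOfModel ℓ : ℤ) : integralClosure ℤ ℂ) -
      ((W.apOfModel ℓ : ℤ) : integralClosure ℤ ℂ) ∈ 𝔪 := by
    rw [← Int.cast_sub, hk, Int.cast_mul, Int.cast_natCast]
    exact 𝔪.mul_mem_right _ hpm
  simpa using 𝔪.add_mem ham hk'

/-- Residual modularity at `3`, at a squarefree level, of every semistable curve. -/
theorem semistableModularAtThree (hsw3 : ThreeSwitch) (hsw5 : FiveSwitch) (hrem : LevelTwoRemoval)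
    (h2 : Endgame.SquarefreeModularAtThree) (hS29 : RT.EigenformResidualRep)
    (hlift3 : LiftAtThree) (hlift5 : LiftAtFive) : SemistableModularAtThree := by
  intro W hΔ hW hirr
  by_cases hW2 : (2 : ℤ) ∣ W.Δ
  · exact h2 W hΔ hW hW2 hirr
  obtain ⟨V, hVΔ, hV, hVirr, hcase, hgood3, hcong⟩ := hsw3 W hΔ hW hirr hW2
  rcases hcase with hV2 | ⟨hss, hV5, hbad, hat3⟩
  · obtain ⟨M, hM, hsq, hres, hgoodM⟩ := h2 V hVΔ hV hV2 hVirr
    exact ⟨M, hM, hsq, isResiduallyModularOfLevel_of_congr hS29 Nat.prime_three hΔ hVΔ hM hres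
      (fun ℓ hℓ hℓ3 hWℓ hVℓ => by exact_mod_cast hcong ℓ hℓ hℓ3 hWℓ hVℓ),
      fun hg => hgoodM (hgood3 hg)⟩
  · obtain ⟨U, hUΔ, hU, hU3, hUirr, -, hgood5, hcong5⟩ := hsw5 V hVΔ hV hss hV5
    obtain ⟨N, hN, hsqN, hresN, hgN⟩ := Endgame.isResiduallyModular_squarefree_of_congr (p := 5)
      Nat.prime_five hgood5 (hlift3 hUΔ hU hU3 hUirr)
      fun ℓ hℓ hVℓ hUℓ hℓ5 => by exact_mod_cast hcong5 ℓ hℓ hVℓ hUℓ hℓ5
    obtain ⟨M, hM, hsqM, hresM, hgM, hextra⟩ :=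
      hrem V hVΔ hV hss.1 hV5 hat3 N hN hsqN hresN hgN
    exact Endgame.isResiduallyModular_squarefree_of_congr (p := 3) Nat.prime_three hgood3
      (hlift5 hVΔ hV hV5 hbad hM hsqM hresM hgM hextra)
      fun ℓ hℓ hWℓ hVℓ hℓ3 => by exact_mod_cast hcong ℓ hℓ hℓ3 hWℓ hVℓ

end Fermat.Agent.GoodTwo
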