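import Fermat.Statements.S46
import Fermat.Agent.GoodTwo.Contracts
import Fermat.Agent.Periods.Integral
import Fermat.Agent.TwoAdic.Count.Stabilise
import Fermat.Agent.S49

/-!
# A lattice-realised system of weight-one type from residual modularity at `3`

The system `a` is integral, equal to the trace of the curve at the good primes and zero at the
primes of `S`, those of `3 Δ M`. The eigenform of level `M` with the coefficients at `S` killed has
level dividing `(∏ S)²` and coefficients congruent to `a`; the integral form congruent to `a` is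
read off in the basis dual to a basis of the Hecke algebra.
-/

set_option autoImplicit false

noncomputable section

open WeierstrassCurve CuspForm EisensteinWeightOne CongruenceSubgroup ModularFormClass

namespace Fermat.Agent.GoodTwo

section Eigen

variable (e v : ℕ → ℤ)

/-- The values at the powers of `p`. -/
def powVal (p : ℕ) : ℕ → ℤ
  | 0 => 1
  | 1 => v p
  | r + 2 => v p * powVal p (r + 1) - e p * powVal p r

/-- The multiplicative sequence with these values at prime powers. -/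
def sysOf (n : ℕ) : ℤ := if n = 0 then 0 else n.factorization.prod fun p r => powVal e v p r

theorem sysOf_pow_mul {p k m : ℕ} (hp : p.Prime) (hm : ¬ p ∣ m) :
    sysOf e v (p ^ k * m) = powVal e v p k * sysOf e v m := by
  have hm0 : m ≠ 0 := fun h => hm (h ▸ dvd_zero p)
  have hpk : p ^ k ≠ 0 := pow_ne_zero k hp.ne_zero
  rw [sysOf, sysOf, if_neg (mul_ne_zero hpk hm0), if_neg hm0, Nat.factorization_mul hpk hm0,
    hp.factorization_pow]
  have hdisj : Disjoint (Finsupp.single p k).support m.factorization.support := by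
    refine Finset.disjoint_left.2 fun x hx hx' => hm ?_
    rw [Nat.support_factorization] at hx'
    rw [← Finset.mem_singleton.1 (Finsupp.support_single_subset hx)]
    exact Nat.dvd_of_mem_primeFactors hx'
  rw [Finsupp.prod_add_index_of_disjoint hdisj, Finsupp.prod_single_index (by rfl)]

theorem sysOf_one : sysOf e v 1 = 1 := by simp [sysOf]

theorem sysOf_prime {p : ℕ} (hp : p.Prime) : sysOf e v p = v p := by
  have h := sysOf_pow_mul e v (k := 1) (m := 1) hp hp.not_dvd_one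
  rwa [pow_one, mul_one, sysOf_one, mul_one] at h

theorem isEigensystem_sysOf : FormalHecke.IsEigensystem e (sysOf e v) := by
  refine ⟨sysOf_one e v, fun p hp n => ?_⟩
  rw [sysOf_prime e v hp]
  rcases eq_or_ne n 0 with rfl | hn
  · simp [sysOf]
  obtain ⟨k, m, hm, rfl⟩ := Nat.exists_eq_pow_mul_and_not_dvd hn p hp.ne_one
  rw [← mul_assoc, ← pow_succ', sysOf_pow_mul e v hp hm, sysOf_pow_mul e v hp hm]
  rcases k with _ | k
  · rw [if_neg (by simpa using hm)]
    simp [powVal]
  · have hd : p ^ (k + 1) * m / p = p ^ k * m := by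
      rw [pow_succ', mul_assoc, Nat.mul_div_cancel_left _ hp.pos]
    rw [if_pos (dvd_mul_of_dvd_left (dvd_pow_self p k.succ_ne_zero) m), hd,
      sysOf_pow_mul e v hp hm]
    simp only [powVal]
    ring

end Eigen

/-- Killing the coefficients at primes of the level at which the form is an eigenvector. -/
theorem exists_deplete_dvd (P : Finset ℕ) (hP : ∀ ℓ ∈ P, ℓ.Prime) :
    ∀ (L : ℕ) [NeZero L] (x : CuspForm (Gamma0 L) 2),
      (∀ ℓ ∈ P, ∃ c : ℂ, ∀ n, qCoeff x (n * ℓ) = c * qCoeff x n) →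
      ∃ y : CuspForm (Gamma0 (L * ∏ ℓ ∈ P, ℓ)) 2,
        ∀ n, qCoeff y n = if ∀ ℓ ∈ P, ¬ ℓ ∣ n then qCoeff x n else 0 := by
  induction P using Finset.induction_on with
  | empty =>
    intro L _ x _
    have : NeZero (L * ∏ ℓ ∈ (∅ : Finset ℕ), ℓ) := ⟨by simpa using NeZero.ne L⟩
    exact ⟨BadPrime.levelIncl (by simp) x, fun n => by rw [if_pos (by simp)]; rfl⟩
  | @insert ℓ P hℓP ih =>
    intro L _ x hx
    have hℓ := hP ℓ (Finset.mem_insert_self ℓ P)
    have : NeZero ℓ := ⟨hℓ.ne_zero⟩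
    have hPr : ∀ r ∈ P, r.Prime := fun r hr => hP r (Finset.mem_insert_of_mem hr)
    obtain ⟨c, hc⟩ := hx ℓ (Finset.mem_insert_self ℓ P)
    let x₁ : CuspForm (Gamma0 (L * ℓ)) 2 := BadPrime.levelIncl (dvd_mul_right L ℓ) x +
      (-(c / ℓ)) • RT.Systems.diagForm (dvd_refl (L * ℓ)) x
    have hℓ0 : (ℓ : ℂ) ≠ 0 := Nat.cast_ne_zero.2 hℓ.ne_zero
    have hx₁ : ∀ n, qCoeff x₁ n = if ℓ ∣ n then 0 else qCoeff x n := fun n => by
      rw [Periods.qCoeff_add, Periods.qCoeff_smul, RT.Systems.qCoeff_diagForm,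
        BadPrime.coe_levelIncl]
      split_ifs with hn
      · obtain ⟨m, rfl⟩ := hn
        rw [Nat.mul_div_cancel_left _ hℓ.pos, mul_comm ℓ m, hc m]
        field_simp
        ring
      · simp
    obtain ⟨y, hy⟩ := ih hPr (L * ℓ) x₁ fun r hr => by
      obtain ⟨d, hd⟩ := hx r (Finset.mem_insert_of_mem hr)
      have hne : ¬ ℓ ∣ r := fun h =>
        hℓP ((Nat.prime_dvd_prime_iff_eq hℓ (hPr r hr)).1 h ▸ hr)
      refine ⟨d, fun n => ?_⟩
      simp only [hx₁, hℓ.dvd_mul, hne, or_false, hd]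
      split_ifs <;> simp
    have : NeZero (L * ℓ * ∏ r ∈ P, r) :=
      ⟨mul_ne_zero (NeZero.ne _) (Finset.prod_ne_zero_iff.2 fun r hr => (hPr r hr).ne_zero)⟩
    have : NeZero (L * ∏ r ∈ insert ℓ P, r) :=
      ⟨mul_ne_zero (NeZero.ne _) (Finset.prod_ne_zero_iff.2 fun r hr => (hP r hr).ne_zero)⟩
    refine ⟨BadPrime.levelIncl (dvd_of_eq (by rw [Finset.prod_insert hℓP]; ring)) y, fun n => ?_⟩
    rw [BadPrime.coe_levelIncl, hy, hx₁]
    simp only [Finset.forall_mem_insert]
    split_ifs <;> simp_all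

section Descent

local notation "Ω" => integralClosure ℤ ℂ

variable (𝔪 : Ideal (integralClosure ℤ ℂ))

/-- The elements of the ideal, as complex numbers. -/
def idealSub : AddSubgroup ℂ :=
  (Submodule.toAddSubgroup 𝔪).map (Subalgebra.val (integralClosure ℤ ℂ)).toRingHom.toAddMonoidHom

theorem mem_idealSub {z : ℂ} : z ∈ idealSub 𝔪 ↔ ∃ x : Ω, x ∈ 𝔪 ∧ (x : ℂ) = z := by
  rw [idealSub, AddSubgroup.mem_map]
  rfl

variable {𝔪}

theorem mul_int_mem_idealSub {z : ℂ} (hz : z ∈ idealSub 𝔪) (k : ℤ) :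
    (k : ℂ) * z ∈ idealSub 𝔪 := by
  rw [← zsmul_eq_mul]
  exact zsmul_mem hz k

theorem mul_mem_idealSub {z w : ℂ} (hz : z ∈ idealSub 𝔪) {k : ℤ}
    (hw : w - k ∈ idealSub 𝔪) : z * w ∈ idealSub 𝔪 := by
  obtain ⟨x, hx, rfl⟩ := (mem_idealSub 𝔪).1 hz
  obtain ⟨y, hy, hyw⟩ := (mem_idealSub 𝔪).1 hw
  refine (mem_idealSub 𝔪).2 ⟨x * (y + k), 𝔪.mul_mem_right _ hx, ?_⟩
  push_cast
  rw [hyw]
  ring

theorem three_dvd_of_mem_idealSub (hmax : 𝔪.IsMaximal) (h3 : ((3 : ℕ) : Ω) ∈ 𝔪) {k : ℤ}
    (hk : (k : ℂ) ∈ idealSub 𝔪) : (3 : ℤ) ∣ k := by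
  obtain ⟨x, hx, hxk⟩ := (mem_idealSub 𝔪).1 hk
  have hxk' : x = (k : Ω) := Subtype.ext (by rw [hxk]; simp)
  rw [hxk'] at hx
  by_contra hd
  obtain ⟨u, v, huv⟩ := (Prime.coprime_iff_not_dvd Int.prime_three).2 hd
  refine hmax.ne_top (Ideal.eq_top_iff_one _ |>.2 ?_)
  have h1 := 𝔪.add_mem (𝔪.mul_mem_left (u : Ω) h3) (𝔪.mul_mem_left (v : Ω) hx)
  have e : (u : Ω) * ((3 : ℕ) : Ω) + (v : Ω) * (k : Ω) = 1 := by
    exact_mod_cast congrArg (fun z : ℤ => (z : Ω)) huv
  rwa [e] at h1

variable {N : ℕ} [NeZero N]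

/-- Coefficients congruent to integers stay so under the Hecke algebra. -/
theorem heckeAlgebra_near {t : Module.End ℂ (CuspForm (Gamma0 N) 2)}
    (ht : t ∈ CuspForm.heckeAlgebra N 2 ∅) :
    ∀ h : CuspForm (Gamma0 N) 2, (∀ n, ∃ k : ℤ, qCoeff h n - k ∈ idealSub 𝔪) →
      ∀ n, ∃ k : ℤ, qCoeff (t h) n - k ∈ idealSub 𝔪 := by
  induction ht using Algebra.adjoin_induction with
  | mem t ht =>
    intro h hh n
    rcases ht with ⟨ℓ, hℓ, hℓN, -, rfl⟩ | ⟨q, hqN, hq, -, rfl⟩
    · obtain ⟨k, hk⟩ := hh (n * ℓ)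
      obtain ⟨j, hj⟩ := hh (n / ℓ)
      rw [Periods.qCoeff_heckeTLin]
      split_ifs
      · refine ⟨k + ℓ * j, ?_⟩
        have := add_mem hk (mul_int_mem_idealSub hj ℓ)
        convert this using 1
        push_cast
        ring
      · exact ⟨k, by simpa using hk⟩
    · rw [Periods.qCoeff_heckeULin hq]
      exact hh _
  | algebraMap r =>
    intro h hh n
    obtain ⟨k, hk⟩ := hh n
    refine ⟨r * k, ?_⟩
    have := mul_int_mem_idealSub hk r
    rw [Module.algebraMap_end_apply, ← Int.cast_smul_eq_zsmul ℂ, Periods.qCoeff_smul]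
    convert this using 1
    push_cast
    ring
  | add x y _ _ hx hy =>
    intro h hh n
    obtain ⟨k, hk⟩ := hx h hh n
    obtain ⟨j, hj⟩ := hy h hh n
    refine ⟨k + j, ?_⟩
    rw [LinearMap.add_apply, Periods.qCoeff_add]
    convert add_mem hk hj using 1
    push_cast
    ring
  | mul x y _ _ hx hy =>
    intro h hh
    rw [Module.End.mul_apply]
    exact hx _ (hy h hh)

/-- A form with coefficients congruent to integers is congruent to an integral form. -/
theorem exists_qIntegral_congr (h : CuspForm (Gamma0 N) 2) (a : ℕ → ℤ)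
    (hh : ∀ n, qCoeff h n - a n ∈ idealSub 𝔪) :
    ∃ (f : CuspForm (Gamma0 N) 2) (af : ℕ → ℤ), (∀ n, (af n : ℂ) = qCoeff f n) ∧
      ∀ n, ((af n - a n : ℤ) : ℂ) ∈ idealSub 𝔪 := by
  classical
  obtain ⟨d, t, b, hb⟩ := Periods.exists_dual_forms N (Periods.hasHeckeLattice N)
  have hz : ∀ i, ∃ k : ℤ, b.repr h i - k ∈ idealSub 𝔪 := fun i => by
    obtain ⟨k, hk⟩ := heckeAlgebra_near (t i).2 h (fun n => ⟨a n, hh n⟩) 1
    refine ⟨k, ?_⟩
    have e : qCoeff (((t i : _) : Module.End ℂ (CuspForm (Gamma0 N) 2)) h) 1 = b.repr h i := by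
      conv_lhs => rw [← b.sum_repr h, ← Periods.qCoeffLin_apply]
      simp only [map_sum, map_smul, Periods.qCoeffLin_apply, hb, smul_eq_mul]
      simp
    rwa [← e]
  choose z hz using hz
  have hr : ∀ (n : ℕ) i, ∃ r : ℤ, qCoeff (b i) n = r := fun n i => by
    obtain ⟨u, hu, hu'⟩ := Periods.exists_coeffOp N n
    refine ⟨t.repr ⟨u, hu⟩ i, ?_⟩
    rw [hu', ← Periods.qCoeffLin_apply]
    change Periods.qCoeffLin N 1
      (((⟨u, hu⟩ : CuspForm.heckeAlgebra N 2 ∅) : Module.End ℂ _) (b i)) = _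
    conv_lhs => rw [← t.sum_repr ⟨u, hu⟩]
    simp only [AddSubmonoidClass.coe_finsetSum, LinearMap.coe_sum, Finset.sum_apply, map_sum]
    rw [Finset.sum_eq_single i]
    · rw [Subalgebra.coe_smul, LinearMap.smul_apply, ← Int.cast_smul_eq_zsmul ℂ, map_smul,
        Periods.qCoeffLin_apply, hb, if_pos rfl, smul_eq_mul, mul_one]
    · intro j _ hj
      rw [Subalgebra.coe_smul, LinearMap.smul_apply, ← Int.cast_smul_eq_zsmul ℂ, map_smul,
        Periods.qCoeffLin_apply, hb, if_neg (Ne.symm hj), smul_zero]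
    · simp
  choose r hr using hr
  refine ⟨∑ i, (z i : ℂ) • b i, fun n => ∑ i, z i * r n i, fun n => ?_, fun n => ?_⟩
  · rw [← Periods.qCoeffLin_apply, map_sum]
    simp [hr]
  · have h1 : qCoeff h n = ∑ i, b.repr h i * (r n i : ℂ) := by
      conv_lhs => rw [← b.sum_repr h, ← Periods.qCoeffLin_apply]
      simp only [map_sum, map_smul, smul_eq_mul, Periods.qCoeffLin_apply, hr]
    have h2 : ∑ i, (r n i : ℂ) * (b.repr h i - z i) ∈ idealSub 𝔪 :=
      AddSubgroup.sum_mem _ fun i _ => mul_int_mem_idealSub (hz i) _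
    convert sub_mem (hh n) h2 using 1
    rw [h1]
    push_cast
    simp only [mul_comm (r n _ : ℂ), sub_mul]
    rw [Finset.sum_sub_distrib]
    ring

end Descent

theorem hasIntegralBasis (N : ℕ) [NeZero N] : CuspForm.HasIntegralBasis N := by
  rw [CuspForm.HasIntegralBasis, eq_top_iff, ← Periods.hasIntegralStructure_two N,
    CuspForm.intLattice, Submodule.span_span_of_tower]
  exact Submodule.span_mono fun f hf => S49.mem_qIntegralSet_iff.2 hf

/-- **S46 from residual modularity at `3`.** -/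
theorem s46_of (hmod : SemistableModularAtThree) :
    ∀ W : WeierstrassCurve ℤ, W.Δ ≠ 0 → W.IsSemistableModel → W.ModRepIsIrreducible 3 →
      ∃ (N : ℕ) (_ : NeZero N) (a : ℕ → ℤ),
        CuspForm.HasIntegralBasis N ∧
        FormalHecke.IsEigensystem
          (fun ℓ => if ℓ ∣ N then 0 else ((chiNegThree ℓ : ℤ) : ℤ)) a ∧
        CuspForm.IsLatticeRealized N a ∧
        (∀ q : ℕ, q.Prime → q ≠ 3 → ¬ q ^ 3 ∣ N) ∧
        ∀ ℓ : ℕ, ℓ.Prime → W.IsGoodPrimeFor ℓ → ¬ ℓ ∣ N → ℓ ≠ 3 →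
          (3 : ℤ) ∣ (a ℓ - W.apOfModel ℓ) := by
  classical
  intro W hΔ hW hirr
  obtain ⟨M, hM0, hMsf, ⟨g, 𝔪, hg, hmax, h3, hgW⟩, -⟩ := hmod W hΔ hW hirr
  have : NeZero M := ⟨hM0.ne'⟩
  have hK : 3 * W.Δ.natAbs * M ≠ 0 :=
    mul_ne_zero (mul_ne_zero (by norm_num) (Int.natAbs_ne_zero.2 hΔ)) hM0.ne'
  set S := (3 * W.Δ.natAbs * M).primeFactors with hS
  have hSp : ∀ p ∈ S, p.Prime := fun p hp => Nat.prime_of_mem_primeFactors hp
  set R := ∏ p ∈ S, p with hR
  have hR0 : R ≠ 0 := Finset.prod_ne_zero_iff.2 fun p hp => (hSp p hp).ne_zero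
  set N := R ^ 2 with hN
  have : NeZero N := ⟨pow_ne_zero 2 hR0⟩
  have hdvdN : ∀ p : ℕ, p.Prime → (p ∣ N ↔ p ∈ S) := fun p hp =>
    ⟨fun hd => by
      obtain ⟨r, hr, hpr⟩ := (hp.prime.dvd_finsetProd_iff _).1 (hp.dvd_of_dvd_pow hd)
      rwa [(Nat.prime_dvd_prime_iff_eq hp (hSp r hr)).1 hpr],
     fun hS => dvd_pow (Finset.dvd_prod_of_mem _ hS) two_ne_zero⟩
  have hout : ∀ p : ℕ, p.Prime → p ∉ S → p ≠ 3 ∧ W.IsGoodPrimeFor p ∧ ¬ p ∣ M := fun p hp hpS => by
    refine ⟨?_, ?_, ?_⟩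
    · rintro rfl
      exact hpS (Nat.mem_primeFactors.2 ⟨hp, (dvd_mul_right 3 _).mul_right M, hK⟩)
    · exact fun hd => hpS (Nat.mem_primeFactors.2
        ⟨hp, ((Int.natCast_dvd.1 hd).mul_left 3).mul_right M, hK⟩)
    · exact fun hd => hpS (Nat.mem_primeFactors.2 ⟨hp, hd.mul_left _, hK⟩)
  set e : ℕ → ℤ := fun ℓ => if ℓ ∣ N then 0 else ((chiNegThree ℓ : ℤ) : ℤ)
  set v : ℕ → ℤ := fun ℓ => if ℓ ∣ N then 0 else W.apOfModel ℓ
  set a := sysOf e v
  have hsys := isEigensystem_sysOf e v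
  -- the form with the coefficients at `S` killed
  have hEg := Periods.isEigen_of_isNormalizedEigenform hg
  have hPM : ∀ p ∈ M.primeFactors, p.Prime := fun p hp => Nat.prime_of_mem_primeFactors hp
  obtain ⟨g₁, hg₁⟩ := exists_deplete_dvd M.primeFactors hPM M g fun p hp =>
    ⟨qCoeff g p, fun n => by
      rw [hEg.qCoeff_mul (hPM p hp), if_neg fun h => h.1 (Nat.dvd_of_mem_primeFactors hp),
        sub_zero]⟩
  have : NeZero (M * ∏ p ∈ M.primeFactors, p) :=
    ⟨mul_ne_zero hM0.ne' (Finset.prod_ne_zero_iff.2 fun p hp => (hPM p hp).ne_zero)⟩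
  have hSM : M.primeFactors ⊆ S := Nat.primeFactors_mono (dvd_mul_left M _) hK
  have hP2 : ∀ p ∈ S \ M.primeFactors, p.Prime := fun p hp => hSp p (Finset.mem_sdiff.1 hp).1
  obtain ⟨g₂, hg₂⟩ := TwoAdic.Count.exists_deplete (S \ M.primeFactors) hP2 _ g₁
  have : NeZero (M * (∏ p ∈ M.primeFactors, p) * (∏ p ∈ S \ M.primeFactors, p) ^ 2) :=
    ⟨mul_ne_zero (NeZero.ne _) (pow_ne_zero 2
      (Finset.prod_ne_zero_iff.2 fun p hp => (hP2 p hp).ne_zero))⟩
  have hlev : M * (∏ p ∈ M.primeFactors, p) * (∏ p ∈ S \ M.primeFactors, p) ^ 2 ∣ N := by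
    rw [hN, hR, ← Finset.prod_sdiff hSM, Nat.prod_primeFactors_of_squarefree hMsf]
    exact dvd_of_eq (by ring)
  set h := BadPrime.levelIncl hlev g₂
  have hh : ∀ n, qCoeff h n = if ∀ p ∈ S, ¬ p ∣ n then qCoeff g n else 0 := fun n => by
    rw [BadPrime.coe_levelIncl, hg₂, hg₁]
    by_cases hc : ∀ p ∈ S, ¬ p ∣ n
    · rw [if_pos hc, if_pos fun p hp => hc p (Finset.mem_sdiff.1 hp).1,
        if_pos fun p hp => hc p (hSM hp)]
    · rw [if_neg hc]
      split_ifs with h2 h1
      · refine absurd (fun p hp => ?_) hc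
        by_cases hpM : p ∈ M.primeFactors
        · exact h1 p hpM
        · exact h2 p (Finset.mem_sdiff.2 ⟨hp, hpM⟩)
      all_goals rfl
  -- the congruence with the system
  have hcong : ∀ n, qCoeff h n - a n ∈ idealSub 𝔪 := by
    intro n
    induction n using Periods.prime_mul_induction with
    | h0 =>
      rw [hh]
      simp [a, sysOf, Periods.qCoeff_zero_eq_zero]
    | h1 =>
      rw [hh, if_pos fun p hp => (hSp p hp).not_dvd_one, hg.qCoeff_one]
      simp [a, sysOf_one]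
    | hmul p m hp hm ih =>
      have hrec : a (p * m) + e p * (if p ∣ m then a (m / p) else 0) = v p * a m := by
        have := hsys.2 p hp m
        rwa [sysOf_prime e v hp] at this
      rw [mul_comm m p]
      by_cases hpS : p ∈ S
      · have hpN := (hdvdN p hp).2 hpS
        have h0 : a (p * m) = 0 := by
          simpa [e, v, hpN] using hrec
        rw [hh, if_neg fun hc => hc p hpS (dvd_mul_right p m), h0]
        simp
      · obtain ⟨hp3, hgood, hpM⟩ := hout p hp hpS
        have hpN : ¬ p ∣ N := fun hd => hpS ((hdvdN p hp).1 hd)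
        have hiff : ∀ x, (∀ r ∈ S, ¬ r ∣ p * x) ↔ ∀ r ∈ S, ¬ r ∣ x := fun x =>
          forall₂_congr fun r hr => not_congr (by
            rw [(hSp r hr).dvd_mul, or_iff_right fun hd =>
              hpS ((Nat.prime_dvd_prime_iff_eq (hSp r hr) hp).1 hd ▸ hr)])
        by_cases hc : ∀ r ∈ S, ¬ r ∣ m
        · obtain ⟨x, hx, hxa⟩ := hgW p hp hgood hpM hp3
          have hp1 : qCoeff g p - (W.apOfModel p : ℂ) ∈ idealSub 𝔪 :=
            (mem_idealSub 𝔪).2 ⟨x - (W.apOfModel p : integralClosure ℤ ℂ), hxa, by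
              rw [AddSubgroupClass.coe_sub, hx]; simp⟩
          have hgm : qCoeff g m - a m ∈ idealSub 𝔪 := by
            have := ih m le_rfl
            rwa [hh, if_pos hc] at this
          have hgood' : e p = chiNegThree p ∧ v p = W.apOfModel p := ⟨if_neg hpN, if_neg hpN⟩
          rw [hgood'.1, hgood'.2] at hrec
          rw [hh, if_pos ((hiff m).2 hc), mul_comm p m, hEg.qCoeff_mul hp]
          rw [mul_comm p m] at hrec
          have h1 := add_mem (mul_mem_idealSub hp1 hgm) (mul_int_mem_idealSub hgm (W.apOfModel p))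
          by_cases hd : p ∣ m
          · have hgd : qCoeff g (m / p) - a (m / p) ∈ idealSub 𝔪 := by
              have := ih _ (Nat.div_le_self m p)
              rwa [hh, if_pos fun r hr hd' => hc r hr (hd'.trans (Nat.div_dvd_of_dvd hd))] at this
            obtain ⟨c, hc'⟩ := S49.chiNegThree_cong p
            have h30 : ((3 * c * a (m / p) : ℤ) : ℂ) ∈ idealSub 𝔪 :=
              (mem_idealSub 𝔪).2 ⟨((3 : ℕ) : integralClosure ℤ ℂ) * ((c * a (m / p) : ℤ) :),
                𝔪.mul_mem_right _ h3, by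
                  rw [MulMemClass.coe_mul, show (((3 : ℕ) : integralClosure ℤ ℂ) : ℂ) = (3 : ℕ)
                    from map_natCast (integralClosure ℤ ℂ).val 3]
                  push_cast
                  ring⟩
            have h2 := add_mem (mul_int_mem_idealSub hgd (p : ℤ)) h30
            rw [if_pos ⟨hpM, hd⟩]
            rw [if_pos hd] at hrec
            convert sub_mem h1 h2 using 1
            have hrecC := congrArg (Int.cast : ℤ → ℂ) hrec
            have hcC := congrArg (Int.cast : ℤ → ℂ) hc'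
            push_cast at hrecC hcC ⊢
            linear_combination -hrecC - (a (m / p) : ℂ) * hcC
          · rw [if_neg fun hx' => hd hx'.2, sub_zero]
            rw [if_neg hd, mul_zero, add_zero] at hrec
            convert h1 using 1
            rw [hrec]
            push_cast
            ring
        · rw [hh, if_neg (fun h' => hc ((hiff m).1 h'))]
          have hm0 : (a m : ℂ) ∈ idealSub 𝔪 := by
            have := ih m le_rfl
            rw [hh, if_neg hc, zero_sub] at this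
            exact neg_mem_iff.1 this
          have hdiv : ((if p ∣ m then a (m / p) else 0 : ℤ) : ℂ) ∈ idealSub 𝔪 := by
            split_ifs with hd
            · have := ih _ (Nat.div_le_self m p)
              rw [hh, if_neg fun h' => hc fun r hr hrm => ?_, zero_sub] at this
              · exact neg_mem_iff.1 this
              · obtain ⟨y, rfl⟩ := hd
                rw [Nat.mul_div_cancel_left _ hp.pos] at h'
                exact (hiff y).2 h' r hr hrm
            · rw [Int.cast_zero]; exact zero_mem _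
          have h1 := sub_mem (mul_int_mem_idealSub hm0 (v p)) (mul_int_mem_idealSub hdiv (e p))
          rw [zero_sub]
          refine neg_mem ?_
          convert h1 using 1
          rw [← Int.cast_mul, ← Int.cast_mul, ← Int.cast_sub]
          exact congrArg _ (by linear_combination hrec)
  obtain ⟨f, af, haf, hfa⟩ := exists_qIntegral_congr h a hcong
  refine ⟨N, inferInstance, a, hasIntegralBasis N, hsys,
    ⟨f, S49.mem_qIntegralSet_iff.2 fun n => ⟨af n, (haf n).symm⟩, af, haf, fun n => ?_⟩,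
    fun q hq _ hd => ?_, fun ℓ hℓ _ hℓN _ => ?_⟩
  · have := dvd_sub (three_dvd_of_mem_idealSub hmax h3 (hfa n)) (S49.bridgeProduct_cong a n)
    simpa using this
  · have hqS : q ∈ S := (hdvdN q hq).1 ((dvd_pow_self q three_ne_zero).trans hd)
    have hrest : ¬ q ∣ ∏ p ∈ S.erase q, p := fun h' => by
      obtain ⟨r, hr, hqr⟩ := (hq.prime.dvd_finsetProd_iff _).1 h'
      exact Finset.ne_of_mem_erase hr
        ((Nat.prime_dvd_prime_iff_eq hq (hSp r (Finset.mem_of_mem_erase hr))).1 hqr).symm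
    rw [hN, hR, ← Finset.mul_prod_erase _ _ hqS, mul_pow, pow_succ q 2] at hd
    exact hrest (hq.dvd_of_dvd_pow
      (Nat.dvd_of_mul_dvd_mul_left (pow_pos hq.pos 2) hd))
  · simp [a, sysOf_prime e v hℓ, v, hℓN]

end Fermat.Agent.GoodTwo
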